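import Fermat.Agent.MordellCurve.Torsion
import Mathlib.NumberTheory.FLT.Three

/-!
# The Fermat cubic

`u³ + v³ = 1` is `y² = x³ - 432` by `x = 12 / (u + v)`, `y = 36 (u - v) / (u + v)`, so both curves
have only the trivial rational points, as does `y² = x³ + 16`, which maps to the former by the
isogeny `(x, y) ↦ ((x³ + 64) / x², y (x³ - 128) / x³)`.
-/

set_option autoImplicit false

noncomputable section

open WeierstrassCurve
open FA.Torsion (cyclicHom cyclicHom_apply cyclicHom_injective)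

namespace FA.Summary

/-- **The Fermat cubic**: `u³ + v³ = 1` in rationals forces `u = 0` or `v = 0`. -/
theorem fermat_cubic_points {u v : ℚ} (h : u ^ 3 + v ^ 3 = 1) :
    (u = 0 ∧ v = 1) ∨ (u = 1 ∧ v = 0) := by
  by_cases hu : u = 0
  · exact Or.inl ⟨hu, (Odd.pow_inj (by decide : Odd 3)).mp (by rw [hu] at h; linarith)⟩
  by_cases hv : v = 0
  · exact Or.inr ⟨(Odd.pow_inj (by decide : Odd 3)).mp (by rw [hv] at h; linarith), hv⟩
  exact absurd h (by
    simpa using fermatLastTheoremFor_iff_rat.mp fermatLastTheoremThree u v 1 hu hv one_ne_zero)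

/-- The rational solutions of `y² = x³ - 432`. -/
theorem rational_points_curve27 {x y : ℚ} (h : y ^ 2 = x ^ 3 - 432) :
    x = 12 ∧ (y = 36 ∨ y = -36) := by
  have hx : x ≠ 0 := fun e => by rw [e] at h; nlinarith [sq_nonneg y]
  have hy : y = 36 ∨ y = -36 := by
    rcases fermat_cubic_points (u := (36 + y) / (6 * x)) (v := (36 - y) / (6 * x)) (by
      field_simp; linear_combination 216 * h) with ⟨h0, -⟩ | ⟨-, h0⟩ <;>
      rw [div_eq_zero_iff] at h0 <;> rcases h0 with h0 | h0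
    · exact Or.inr (by linarith)
    · exact absurd h0 (mul_ne_zero (by norm_num) hx)
    · exact Or.inl (by linarith)
    · exact absurd h0 (mul_ne_zero (by norm_num) hx)
  refine ⟨(Odd.pow_inj (by decide : Odd 3)).mp ?_, hy⟩
  rcases hy with rfl | rfl <;> linarith

/-- The rational solutions of `y² = x³ + 16`. -/
theorem rational_points_curve27_dual {x y : ℚ} (h : y ^ 2 = x ^ 3 + 16) :
    x = 0 ∧ (y = 4 ∨ y = -4) := by
  suffices hx : x = 0 by
    subst hx
    exact ⟨rfl, sq_eq_sq_iff_eq_or_eq_neg.mp (by rw [h]; norm_num)⟩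
  by_contra hx
  obtain ⟨hX, -⟩ := rational_points_curve27 (x := (x ^ 3 + 64) / x ^ 2)
    (y := y * (x ^ 3 - 128) / x ^ 3) (by
      field_simp
      linear_combination (x ^ 3 - 128) ^ 2 * h)
  obtain ⟨t, rfl⟩ : ∃ t, x = 4 * t := ⟨x / 4, by ring⟩
  have ht : t ^ 3 - 3 * t ^ 2 + 1 = 0 := by
    rw [div_eq_iff (pow_ne_zero _ hx)] at hX
    linarith
  have e : t.num ^ 3 - 3 * t.num ^ 2 * (t.den : ℤ) + (t.den : ℤ) ^ 3 = 0 := by
    have e' : (t.num : ℚ) ^ 3 - 3 * (t.num : ℚ) ^ 2 * (t.den : ℚ) + (t.den : ℚ) ^ 3 = 0 := by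
      rw [← Rat.mul_den_eq_num t]
      linear_combination (t.den : ℚ) ^ 3 * ht
    exact_mod_cast e'
  have hco : IsCoprime t.num (t.den : ℤ) := by
    rw [Int.isCoprime_iff_gcd_eq_one, Int.gcd, Int.natAbs_natCast]
    exact t.reduced
  have hden : IsUnit (t.den : ℤ) := (hco.pow_left (m := 3)).symm.isUnit_of_dvd' dvd_rfl
    ⟨3 * t.num ^ 2 - (t.den : ℤ) ^ 2, by linear_combination e⟩
  rw [show (t.den : ℤ) = 1 by rcases Int.isUnit_iff.mp hden with h | h <;> omega] at e
  have hnum : IsUnit t.num := isUnit_of_dvd_one ⟨-t.num ^ 2 + 3 * t.num, by linear_combination e⟩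
  rcases Int.isUnit_iff.mp hnum with h | h <;> rw [h] at e <;> norm_num at e

end FA.Summary

namespace FA.MordellCurve

/-- A group of three points. -/
theorem equiv_zmod_three {k : ℤ} {x₀ y₀ : ℚ} (h₀ : (mordCurve k).toAffine.Nonsingular x₀ y₀)
    (h3 : 3 • Affine.Point.some x₀ y₀ h₀ = 0)
    (hall : ∀ x y : ℚ, y ^ 2 = x ^ 3 + (k : ℚ) → x = x₀ ∧ (y = y₀ ∨ y = -y₀)) :
    Nonempty ((mordCurve k).toAffine.Point ≃+ ZMod 3) := by
  have h1 : cyclicHom (Affine.Point.some x₀ y₀ h₀) h3 1 = Affine.Point.some x₀ y₀ h₀ := by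
    rw [cyclicHom_apply, ZMod.val_one, one_nsmul]
  have := Fact.mk Nat.prime_three
  have ho := addOrderOf_eq_prime h3 (Affine.Point.some_ne_zero _)
  refine ⟨(AddEquiv.ofBijective (cyclicHom _ h3) ⟨cyclicHom_injective h3 fun i hi =>
    Nat.eq_zero_of_dvd_of_lt (ho.symm.dvd.trans (addOrderOf_dvd_of_nsmul_eq_zero hi)) i.2,
    ?_⟩).symm⟩
  rintro (_ | ⟨x, y, h⟩)
  · exact ⟨0, map_zero _⟩
  have he : y ^ 2 = x ^ 3 + (k : ℚ) := by
    have := (Affine.equation_iff x y).mp h.1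
    simp at this
    linear_combination this
  obtain ⟨rfl, rfl | rfl⟩ := hall x y he
  · exact ⟨1, h1⟩
  · refine ⟨-1, ?_⟩
    rw [map_neg, h1, Affine.Point.neg_some, Affine.Point.some.injEq]
    exact ⟨rfl, negY_mordCurve k _ _⟩

end FA.MordellCurve

namespace FA.Summary

open FA.MordellCurve

/-- The group of rational points of `y² = x³ - 432`. -/
theorem point_group_curve27 :
    Nonempty ((⟨0, 0, 0, 0, -432⟩ : WeierstrassCurve ℚ).toAffine.Point ≃+ ZMod 3) := by
  obtain ⟨e⟩ := equiv_zmod_three (k := -432) (nonsingular_mordCurve (by norm_num)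
    (show (36 : ℚ) ^ 2 = 12 ^ 3 + ((-432 : ℤ) : ℚ) by norm_num))
    (three_smul_iff.mpr (by norm_num))
    fun x y h => rational_points_curve27 (by push_cast at h; linarith)
  rw [show mordCurve (-432) = ⟨0, 0, 0, 0, -432⟩ by norm_num [mordCurve]] at e
  exact ⟨e⟩

/-- The group of rational points of `y² = x³ + 16`. -/
theorem point_group_curve27_dual :
    Nonempty ((⟨0, 0, 0, 0, 16⟩ : WeierstrassCurve ℚ).toAffine.Point ≃+ ZMod 3) := by
  obtain ⟨e⟩ := equiv_zmod_three (k := 16) (nonsingular_mordCurve (by norm_num)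
    (show (4 : ℚ) ^ 2 = 0 ^ 3 + ((16 : ℤ) : ℚ) by norm_num))
    (three_smul_iff.mpr (by norm_num))
    fun x y h => rational_points_curve27_dual (by push_cast at h; linarith)
  rw [show mordCurve 16 = ⟨0, 0, 0, 0, 16⟩ by norm_num [mordCurve]] at e
  exact ⟨e⟩

end FA.Summary

end
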