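import Fermat.Agent.Torsion.RealisedBasic
import Mathlib.NumberTheory.LSeries.PrimesInAP
import Mathlib.NumberTheory.LegendreSymbol.QuadraticChar.Basic
import Mathlib.FieldTheory.Finite.Basic

/-!
# The torsion of the Mordell curves `y² = x³ + k`

Modulo a prime `p ≡ 2 (mod 3)` cubing is a bijection, so there are `p + 1` points and Dirichlet's
theorem shows that the order of the torsion subgroup divides `6`. The points of order two and
three are then found by hand.
-/

set_option autoImplicit false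
set_option linter.style.haveILetI false

noncomputable section

open WeierstrassCurve
open FA.Frob (ratCurve)
open FA.Torsion (countMod natCard_torsion_dvd torsion_equiv_of cyclicHom cyclicHom_injective)

namespace FA.MordellCurve

/-- The curve `y² = x³ + k` over `ℤ`. -/
def mordModel (k : ℤ) : WeierstrassCurve ℤ := ⟨0, 0, 0, 0, k⟩

/-- The curve `y² = x³ + k` over `ℚ`. -/
abbrev mordCurve (k : ℤ) : WeierstrassCurve ℚ := ⟨0, 0, 0, 0, (k : ℚ)⟩

theorem mordModel_Δ (k : ℤ) : (mordModel k).Δ = -432 * k ^ 2 := by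
  simp [mordModel, WeierstrassCurve.Δ, WeierstrassCurve.b₂, WeierstrassCurve.b₄,
    WeierstrassCurve.b₆, WeierstrassCurve.b₈]
  ring

theorem ratCurve_mordModel (k : ℤ) : ratCurve (mordModel k) = mordCurve k := by
  ext <;> simp [mordModel]

theorem isElliptic_mordCurve {k : ℤ} (hk : k ≠ 0) : (mordCurve k).IsElliptic :=
  ratCurve_mordModel k ▸ FA.Frob.ratCurve_isElliptic_of_Δ (by
    rw [mordModel_Δ]; exact mul_ne_zero (by norm_num) (pow_ne_zero _ hk))

theorem nonsingular_mordCurve {k : ℤ} (hk : k ≠ 0) {x y : ℚ} (h : y ^ 2 = x ^ 3 + (k : ℚ)) :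
    (mordCurve k).toAffine.Nonsingular x y :=
  haveI := isElliptic_mordCurve hk
  Affine.equation_iff_nonsingular.mp ((Affine.equation_iff x y).mpr (by simp; linear_combination h))

/-- Modulo a prime `p ≡ 2 (mod 3)` there are `p + 1` points. -/
theorem countMod_mordModel (k : ℤ) {p : ℕ} [Fact p.Prime] (hp : p % 3 = 2) (hp2 : p ≠ 2) :
    countMod (mordModel k) p = p + 1 := by
  classical
  have hchar : ringChar (ZMod p) ≠ 2 := by rwa [ZMod.ringChar_zmod_n]
  have hcube : Function.Injective fun x : ZMod p => x ^ 3 := by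
    intro x y h
    simp only at h
    rcases eq_or_ne y 0 with rfl | hy
    · simpa using h
    have h1 : (x / y) ^ 3 = 1 := by rw [div_pow, h, div_self (pow_ne_zero _ hy)]
    have hne : x / y ≠ 0 := fun e => by rw [e] at h1; simp at h1
    have ho : orderOf (x / y) = 1 := Nat.eq_one_of_dvd_coprimes
      ((Nat.Prime.coprime_iff_not_dvd Nat.prime_three).mpr (by omega : ¬ 3 ∣ p - 1))
      (orderOf_dvd_of_pow_eq_one h1) (ZMod.orderOf_dvd_card_sub_one hne)
    exact div_eq_one_iff_eq hy |>.mp (orderOf_eq_one_iff.mp ho)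
  have hsum : ∑ x, quadraticChar (ZMod p) (x ^ 3 + (k : ZMod p)) = 0 := by
    rw [Fintype.sum_bijective (fun x : ZMod p => x ^ 3)
        (Finite.injective_iff_bijective.mp hcube) (fun x => quadraticChar (ZMod p) (x ^ 3 + k))
        (fun x => quadraticChar (ZMod p) (x + k)) fun _ => rfl,
      Fintype.sum_equiv (Equiv.addRight (k : ZMod p)) (fun x => quadraticChar (ZMod p) (x + k))
        (quadraticChar (ZMod p)) fun _ => rfl]
    exact quadraticChar_sum_zero hchar
  have key : ((Finset.univ.filter fun q : ZMod p × ZMod p =>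
      q.2 ^ 2 = q.1 ^ 3 + (k : ZMod p)).card : ℤ) = p := by
    rw [Finset.card_filter, Fintype.sum_prod_type, Nat.cast_sum]
    have hx : ∀ x : ZMod p, ((∑ y : ZMod p, if y ^ 2 = x ^ 3 + (k : ZMod p) then 1 else 0 : ℕ) : ℤ) =
        quadraticChar (ZMod p) (x ^ 3 + k) + 1 := fun x => by
      rw [← Finset.card_filter, ← quadraticChar_card_sqrts hchar, Set.toFinset_ofPred]
    simp only [hx, Finset.sum_add_distrib, hsum, zero_add, Finset.sum_const, Finset.card_univ,
      ZMod.card]
    simp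
  rw [countMod, Nat.add_right_cancel_iff, ← @Nat.cast_inj ℤ]
  refine Eq.trans ?_ key
  congr 2
  ext q
  simp [mordModel]

/-- The order of the torsion subgroup divides `6`. -/
theorem natCard_torsion_dvd_six {k : ℤ} (hk : k ≠ 0) :
    Finite (AddCommGroup.torsion (mordCurve k).toAffine.Point) ∧
      Nat.card (AddCommGroup.torsion (mordCurve k).toAffine.Point) ∣ 6 := by
  rw [← ratCurve_mordModel]
  haveI := FA.Frob.ratCurve_isElliptic_of_Δ (W := mordModel k) (by
    rw [mordModel_Δ]; exact mul_ne_zero (by norm_num) (pow_ne_zero _ hk))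
  have hgood : ∀ p : ℕ, p.Prime → 432 < p → k.natAbs < p → ¬ (p : ℤ) ∣ (mordModel k).Δ := by
    intro p hp h7 hkp hd
    rw [mordModel_Δ] at hd
    have hd' : p ∣ 432 * k.natAbs ^ 2 := by
      simpa [Int.natAbs_mul, Int.natAbs_pow] using Int.natCast_dvd.mp hd
    rcases hp.dvd_mul.mp hd' with h | h
    · have := Nat.le_of_dvd (by norm_num) h; omega
    · have := Nat.le_of_dvd (Int.natAbs_pos.mpr hk) (hp.dvd_of_dvd_pow h); omega
  obtain ⟨p₀, hp₀, hp₀'⟩ := Nat.exists_infinite_primes (k.natAbs + 433)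
  haveI := Fact.mk hp₀'
  obtain ⟨hfin, -⟩ := natCard_torsion_dvd p₀ (mordModel k) (by omega)
    (hgood p₀ hp₀' (by omega) (by omega))
  refine ⟨hfin, ?_⟩
  set d := Nat.card (AddCommGroup.torsion (ratCurve (mordModel k)).toAffine.Point)
  have hd0 : d ≠ 0 := Nat.card_pos.ne'
  obtain ⟨i, m', hm', e1⟩ := Nat.exists_eq_pow_mul_and_not_dvd hd0 2 (by norm_num)
  obtain ⟨j, m, hm, e2⟩ := Nat.exists_eq_pow_mul_and_not_dvd
    (show m' ≠ 0 by rintro rfl; simp at hm') 3 (by norm_num)
  have h2m : ¬ 2 ∣ m := fun h => hm' (e2 ▸ h.mul_left _)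
  have hm0 : m ≠ 0 := by rintro rfl; simp at hm
  have hco : Nat.Coprime 36 m := Nat.Coprime.mul_left (k := m) (m := 4) (n := 9)
    ((Nat.prime_two.coprime_iff_not_dvd.mpr h2m).pow_left 2)
    ((Nat.prime_three.coprime_iff_not_dvd.mpr hm).pow_left 2)
  obtain ⟨r, hr36, hrm⟩ := Nat.chineseRemainder hco 29 1
  have hcop : r.Coprime (36 * m) := by
    refine Nat.Coprime.mul_right ?_ ?_
    · rw [Nat.Coprime, hr36.gcd_eq]; decide
    · rw [Nat.Coprime, hrm.gcd_eq, Nat.gcd_one_left]
  obtain ⟨p, hpgt, hp, hpr⟩ := Nat.forall_exists_prime_gt_and_modEq (k.natAbs + 433)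
    (q := 36 * m) (mul_ne_zero (by norm_num) hm0) hcop
  have hp36 : p % 36 = 29 := (hpr.of_mul_right m).trans hr36
  have hpm : p ≡ 1 [MOD m] := (hpr.of_mul_left 36).trans hrm
  haveI := Fact.mk hp
  have hdvd := (natCard_torsion_dvd p (mordModel k) (by omega) (hgood p hp (by omega) (by omega))).2
  rw [countMod_mordModel k (by omega) (by omega)] at hdvd
  change d ∣ p + 1 at hdvd
  have hmp : m ∣ p + 1 := by
    refine Dvd.dvd.trans ?_ hdvd
    rw [e1, e2]
    exact dvd_mul_of_dvd_right (dvd_mul_left _ _) _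
  have h2 : m ∣ 2 := Nat.modEq_zero_iff_dvd.mp
    ((hpm.add_right 1).symm.trans (Nat.modEq_zero_iff_dvd.mpr hmp))
  have hm1 : m = 1 := Nat.Coprime.eq_one_of_dvd
    (Nat.prime_two.coprime_iff_not_dvd.mpr h2m).symm h2
  subst hm1
  rw [mul_one] at e2
  subst e2
  rw [e1] at hdvd ⊢
  have hi : i ≤ 1 := by
    by_contra h
    have h4 : 4 ∣ p + 1 := ((pow_dvd_pow 2 (by omega : 2 ≤ i)).trans (dvd_mul_right _ _)).trans hdvd
    omega
  have hj : j ≤ 1 := by
    by_contra h
    have h9 : 9 ∣ p + 1 := ((pow_dvd_pow 3 (by omega : 2 ≤ j)).trans (dvd_mul_left _ _)).trans hdvd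
    omega
  exact mul_dvd_mul (pow_dvd_pow 2 hi) (pow_dvd_pow 3 hj)

theorem negY_mordCurve (k : ℤ) (x y : ℚ) : (mordCurve k).toAffine.negY x y = -y := by
  simp [Affine.negY]

/-- A point killed by two has `y = 0`. -/
theorem two_smul_iff {k : ℤ} {x y : ℚ} {h : (mordCurve k).toAffine.Nonsingular x y} :
    2 • Affine.Point.some x y h = 0 ↔ y = 0 := by
  constructor
  · intro h2
    by_contra hy
    rw [two_nsmul, Affine.Point.add_self_of_Y_ne (by
      rw [negY_mordCurve]; exact fun e => hy (by linarith))] at h2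
    exact Affine.Point.some_ne_zero _ h2
  · rintro rfl
    rw [two_nsmul]
    exact Affine.Point.add_self_of_Y_eq (by rw [negY_mordCurve, neg_zero])

/-- The points killed by three. -/
theorem three_smul_iff {k : ℤ} {x y : ℚ} {h : (mordCurve k).toAffine.Nonsingular x y} :
    3 • Affine.Point.some x y h = 0 ↔ y ≠ 0 ∧ x * (x ^ 3 + 4 * (k : ℚ)) = 0 := by
  have he : y ^ 2 = x ^ 3 + (k : ℚ) := by
    have := (Affine.equation_iff x y).mp h.1
    simp at this
    linear_combination this
  by_cases hy : y = 0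
  · subst hy
    refine iff_of_false (fun h3 => ?_) (fun h3 => h3.1 rfl)
    rw [succ_nsmul, two_smul_iff.mpr rfl, zero_add] at h3
    exact Affine.Point.some_ne_zero _ h3
  have hne : y ≠ (mordCurve k).toAffine.negY x y := by
    rw [negY_mordCurve]; exact fun e => hy (by linarith)
  have hl : (mordCurve k).toAffine.slope x x y y = 3 * x ^ 2 / (2 * y) := by
    rw [Affine.slope_of_Y_ne rfl hne, negY_mordCurve]
    simp
    ring
  rw [succ_nsmul, two_nsmul, Affine.Point.add_self_of_Y_ne hne, add_eq_zero_iff_eq_neg,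
    Affine.Point.neg_some, Affine.Point.some.injEq, hl]
  simp only [negY_mordCurve, Affine.addX, Affine.addY, Affine.negAddY, ne_eq, hy, not_false_iff,
    true_and, zero_mul, add_zero, sub_zero]
  constructor
  · rintro ⟨hx, -⟩
    field_simp at hx
    linear_combination (-(1 : ℚ) / 3) * hx - 4 * x * he
  · intro hx
    have hx' : (3 * x ^ 2 / (2 * y)) ^ 2 - x - x = x := by
      field_simp
      linear_combination -3 * hx - 12 * x * he
    refine ⟨hx', ?_⟩
    rw [hx', sub_self, mul_zero, zero_add]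

/-- A rational cube root of an integer is an integer. -/
theorem exists_int_of_pow {x : ℚ} {k : ℤ} {n : ℕ} (hn : n ≠ 0) (h : x ^ n = k) :
    ∃ c : ℤ, x = c := by
  refine ⟨x.num, ((Rat.den_eq_one_iff x).mp ?_).symm⟩
  have := congrArg Rat.den h
  rw [Rat.den_pow, Rat.den_intCast] at this
  exact (pow_eq_one_iff.mp this).resolve_right hn

/-- Up to sixth powers `k = -432` is the only other case with a point of order three. -/
theorem eq_neg_432 {k : ℤ} (hk : ∀ m : ℤ, m ^ 6 ∣ k → IsUnit m) {x y : ℚ} (hx : x ≠ 0)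
    (he : y ^ 2 = x ^ 3 + (k : ℚ)) (h3 : x ^ 3 + 4 * (k : ℚ) = 0) : k = -432 := by
  have hy : y ^ 2 = -3 * (k : ℚ) := by linear_combination he + h3
  set s := y / (3 * x) with hs
  have hks : (k : ℚ) = -432 * s ^ 6 := by
    have hs6 : s ^ 6 = (y ^ 2) ^ 3 / (729 * (x ^ 3) ^ 2) := by rw [hs]; field_simp; ring
    have hx3 : x ^ 3 = -4 * (k : ℚ) := by linear_combination h3
    rw [hs6, hy, hx3]
    have : (k : ℚ) ≠ 0 := fun e => hx (by simpa [e] using hx3)
    field_simp
    ring
  have e : k * (s.den : ℤ) ^ 6 = -432 * s.num ^ 6 := by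
    have h' : (k : ℚ) * ((s.den : ℤ) : ℚ) ^ 6 = -432 * (s.num : ℚ) ^ 6 := by
      rw [← Rat.mul_den_eq_num s, hks, Int.cast_natCast]; ring
    exact_mod_cast h'
  have hco : IsCoprime s.num (s.den : ℤ) := by
    rw [Int.isCoprime_iff_gcd_eq_one, Int.gcd, Int.natAbs_natCast]
    exact s.reduced
  have hnum : IsUnit s.num := hk _ ((hco.pow (m := 6) (n := 6)).dvd_of_dvd_mul_right
    ⟨-432, by linear_combination e⟩)
  have hn1 : s.num ^ 6 = 1 := by rcases Int.isUnit_iff.mp hnum with h | h <;> norm_num [h]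
  rw [hn1, mul_one] at e
  have hd : s.den ^ 6 ∣ 432 := Int.natCast_dvd_natCast.mp ⟨-k, by push_cast; linear_combination e⟩
  have hlt : s.den < 3 := by
    by_contra h
    have := (Nat.pow_le_pow_left (show 3 ≤ s.den by omega) 6).trans
      (Nat.le_of_dvd (by norm_num) hd)
    omega
  have := s.den_pos
  rcases (show s.den = 1 ∨ s.den = 2 by omega) with h | h <;> rw [h] at e hd
  · simpa using e
  · norm_num at hd

variable {k : ℤ}

/-- An even torsion order makes `k` a cube. -/
theorem two_dvd_imp_cube (hk : k ≠ 0)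
    (h : 2 ∣ Nat.card (AddCommGroup.torsion (mordCurve k).toAffine.Point)) :
    ∃ c : ℤ, k = c ^ 3 := by
  haveI := (natCard_torsion_dvd_six hk).1
  obtain ⟨P, hP⟩ := exists_prime_addOrderOf_dvd_card' 2 h
  rw [← AddSubgroup.addOrderOf_coe] at hP
  rcases hc : (P : (mordCurve k).toAffine.Point) with _ | ⟨x, y, hns⟩
  · rw [hc, ← Affine.Point.zero_def, addOrderOf_zero] at hP; norm_num at hP
  · rw [hc] at hP
    have hy : y = 0 := two_smul_iff.mp (addOrderOf_dvd_iff_nsmul_eq_zero.mp hP.dvd)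
    have hx : x ^ 3 = ((-k : ℤ) : ℚ) := by
      have := (Affine.equation_iff x y).mp hns.1
      simp [hy] at this
      push_cast
      linarith
    obtain ⟨c, rfl⟩ := exists_int_of_pow (by norm_num) hx
    have hc3 : c ^ 3 = -k := by exact_mod_cast hx
    exact ⟨-c, by linear_combination hc3⟩

/-- A torsion order divisible by `3` makes `k` a square or `-432`. -/
theorem three_dvd_imp (hk : ∀ m : ℤ, m ^ 6 ∣ k → IsUnit m) (hk0 : k ≠ 0)
    (h : 3 ∣ Nat.card (AddCommGroup.torsion (mordCurve k).toAffine.Point)) :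
    IsSquare k ∨ k = -432 := by
  haveI := (natCard_torsion_dvd_six hk0).1
  haveI := Fact.mk Nat.prime_three
  obtain ⟨P, hP⟩ := exists_prime_addOrderOf_dvd_card' 3 h
  rw [← AddSubgroup.addOrderOf_coe] at hP
  rcases hc : (P : (mordCurve k).toAffine.Point) with _ | ⟨x, y, hns⟩
  · rw [hc, ← Affine.Point.zero_def, addOrderOf_zero] at hP; norm_num at hP
  · rw [hc] at hP
    obtain ⟨-, hx⟩ := three_smul_iff.mp (addOrderOf_dvd_iff_nsmul_eq_zero.mp hP.dvd)
    have he : y ^ 2 = x ^ 3 + (k : ℚ) := by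
      have := (Affine.equation_iff x y).mp hns.1
      simp at this
      linear_combination this
    by_cases hx0 : x = 0
    · have hy2 : y ^ 2 = (k : ℚ) := by rw [he, hx0]; ring
      obtain ⟨c, rfl⟩ := exists_int_of_pow two_ne_zero hy2
      exact Or.inl ⟨c, by rw [← sq]; exact_mod_cast hy2.symm⟩
    · exact Or.inr (eq_neg_432 hk hx0 he ((mul_eq_zero.mp hx).resolve_left hx0))

/-- Torsion with a point of order `d` and order dividing `d`. -/
theorem equiv_of_point (hk : k ≠ 0) {d : ℕ} [NeZero d] (P : (mordCurve k).toAffine.Point)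
    (hP : addOrderOf P = d)
    (h : Nat.card (AddCommGroup.torsion (mordCurve k).toAffine.Point) ∣ d) :
    Nonempty (AddCommGroup.torsion (mordCurve k).toAffine.Point ≃+ ZMod d) := by
  haveI := isElliptic_mordCurve hk
  haveI := (natCard_torsion_dvd_six hk).1
  have hd0 : d • P = 0 := hP ▸ addOrderOf_nsmul_eq_zero P
  refine torsion_equiv_of (cyclicHom P hd0) (cyclicHom_injective hd0 fun i hi => ?_)
    (by rwa [Nat.card_zmod])
  exact Nat.eq_zero_of_dvd_of_lt (hP.symm.dvd.trans (addOrderOf_dvd_of_nsmul_eq_zero hi)) i.2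

theorem exists_point_two (hk : k ≠ 0) (h : ∃ c : ℤ, k = c ^ 3) :
    ∃ P : (mordCurve k).toAffine.Point, addOrderOf P = 2 := by
  obtain ⟨c, rfl⟩ := h
  exact ⟨.some (-(c : ℚ)) 0 (nonsingular_mordCurve hk (by push_cast; ring)),
    addOrderOf_eq_prime (two_smul_iff.mpr rfl) (Affine.Point.some_ne_zero _)⟩

theorem exists_point_three (hk : k ≠ 0) (h : IsSquare k ∨ k = -432) :
    ∃ P : (mordCurve k).toAffine.Point, addOrderOf P = 3 := by
  haveI := Fact.mk Nat.prime_three
  rcases h with ⟨c, rfl⟩ | rfl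
  · have hc : (c : ℚ) ≠ 0 := Int.cast_ne_zero.mpr (left_ne_zero_of_mul hk)
    exact ⟨.some 0 (c : ℚ) (nonsingular_mordCurve hk (by push_cast; ring)),
      addOrderOf_eq_prime (three_smul_iff.mpr ⟨hc, by ring⟩) (Affine.Point.some_ne_zero _)⟩
  · exact ⟨.some 12 36 (nonsingular_mordCurve hk (by norm_num)),
      addOrderOf_eq_prime (three_smul_iff.mpr (by norm_num)) (Affine.Point.some_ne_zero _)⟩

end FA.MordellCurve

namespace FA.Summary

open FA.MordellCurve

/-- **The torsion of `y² = x³ + k`** for an integer `k` free of sixth powers: `ℤ/6` for `k = 1`,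
`ℤ/3` for another square and for `k = -432`, `ℤ/2` for another cube, trivial otherwise. -/
theorem mordellCurve_torsion (k : ℤ) (hk : ∀ m : ℤ, m ^ 6 ∣ k → IsUnit m) :
    let T := AddCommGroup.torsion (⟨0, 0, 0, 0, (k : ℚ)⟩ : WeierstrassCurve ℚ).toAffine.Point
    (k = 1 → Nonempty (T ≃+ ZMod 6)) ∧
      (k ≠ 1 → (IsSquare k ∨ k = -432) → Nonempty (T ≃+ ZMod 3)) ∧
        (k ≠ 1 → (∃ c : ℤ, k = c ^ 3) → Nonempty (T ≃+ ZMod 2)) ∧
          (¬ IsSquare k → k ≠ -432 → (¬ ∃ c : ℤ, k = c ^ 3) → Nonempty (T ≃+ ZMod 1)) := by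
  have hk0 : k ≠ 0 := fun h => by
    have := Int.isUnit_iff.mp (hk 2 (h ▸ dvd_zero _))
    omega
  haveI := isElliptic_mordCurve hk0
  obtain ⟨hfin, hd⟩ := natCard_torsion_dvd_six hk0
  set d := Nat.card (AddCommGroup.torsion (mordCurve k).toAffine.Point)
  have hd' : d ∈ Nat.divisors 6 := Nat.mem_divisors.mpr ⟨hd, by norm_num⟩
  rw [show Nat.divisors 6 = {1, 2, 3, 6} by decide] at hd'
  simp only [Finset.mem_insert, Finset.mem_singleton] at hd'
  have hboth : IsSquare k ∨ k = -432 → (∃ c : ℤ, k = c ^ 3) → k = 1 := by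
    rintro (⟨a, ha⟩ | rfl) ⟨c, hc⟩
    · have hc0 : 0 ≤ c := (Odd.pow_nonneg_iff (by decide : Odd 3)).mp (hc ▸ ha ▸ mul_self_nonneg a)
      obtain ⟨b, hb⟩ : ∃ b : ℤ, c = b ^ 2 := by
        have hac : (a : ℚ) ^ 2 = (c : ℚ) ^ 3 := by
          exact_mod_cast (sq a).trans (ha.symm.trans hc)
        have hcq : (c : ℚ) ≠ 0 := by
          intro e; apply hk0; rw [hc, Int.cast_eq_zero.mp e]; norm_num
        have hsq : ((a : ℚ) / c) ^ 2 = (c : ℚ) := by
          rw [div_pow, hac]; field_simp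
        obtain ⟨b, hb⟩ := exists_int_of_pow two_ne_zero hsq
        exact ⟨b, by rw [hb] at hsq; exact_mod_cast hsq.symm⟩
      subst hb
      have := hk b ⟨1, by rw [hc]; ring⟩
      rcases Int.isUnit_iff.mp this with rfl | rfl <;> simpa using hc
    · have h1 : -8 < c := by
        by_contra h
        nlinarith [sq_nonneg (c + 8), sq_nonneg c]
      have h2 : c < 0 := (Odd.pow_neg_iff (by decide : Odd 3)).mp (by omega : c ^ 3 < 0)
      interval_cases c <;> norm_num at hc
  have h3 : 3 ∣ d → IsSquare k ∨ k = -432 := three_dvd_imp hk hk0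
  have h2 : 2 ∣ d → ∃ c : ℤ, k = c ^ 3 := two_dvd_imp_cube hk0
  refine ⟨fun h1 => ?_, fun h1 hs => ?_, fun h1 hc => ?_, fun hs h432 hc => ?_⟩
  · subst h1
    obtain ⟨P, hP⟩ := exists_point_two hk0 ⟨1, by norm_num⟩
    obtain ⟨Q, hQ⟩ := exists_point_three hk0 (Or.inl ⟨1, by norm_num⟩)
    refine equiv_of_point hk0 (P + Q) ?_ hd
    rw [(AddCommute.all P Q).addOrderOf_add_eq_mul_addOrderOf_of_coprime (by
      rw [hP, hQ]; decide), hP, hQ]
  · obtain ⟨Q, hQ⟩ := exists_point_three hk0 hs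
    refine equiv_of_point hk0 Q hQ ?_
    rcases hd' with e | e | e | e
    · show d ∣ _
      rw [e]; exact one_dvd _
    · exact absurd (hboth hs (h2 (by rw [e]))) h1
    · show d ∣ _
      rw [e]
    · exact absurd (hboth hs (h2 (by rw [e]; norm_num))) h1
  · obtain ⟨P, hP⟩ := exists_point_two hk0 hc
    refine equiv_of_point hk0 P hP ?_
    rcases hd' with e | e | e | e
    · show d ∣ _
      rw [e]; exact one_dvd _
    · show d ∣ _
      rw [e]
    · exact absurd (hboth (h3 (by rw [e])) hc) h1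
    · exact absurd (hboth (h3 (by rw [e]; norm_num)) hc) h1
  · refine equiv_of_point hk0 0 addOrderOf_zero ?_
    have hno : ¬ (IsSquare k ∨ k = -432) := fun h => h.elim hs h432
    rcases hd' with e | e | e | e
    · show d ∣ _
      rw [e]
    · exact absurd (h2 (by rw [e])) hc
    · exact absurd (h3 (by rw [e])) hno
    · exact absurd (h3 (by rw [e]; norm_num)) hno

end FA.Summary

end
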