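import Fermat.Agent.Torsion.X35Eisenstein
import Mathlib.AlgebraicGeometry.EllipticCurve.Affine.Point
import Mathlib.RingTheory.Int.Basic

/-!
# A prime `p ≡ 2, 5 (mod 9)` and its square are not sums of two cubes

Sylvester's descent on `x³ + y³ = P z³` for a power `P ≢ ±1 (mod 9)` of a prime `p ≡ 2 (mod 3)`,
where only `1 + 1 = 2` is left: unique factorisation in `ℤ[ω]` writes `x² - x y + y²`, or
its third when `3 ∣ x + y`, as a norm of a cube, and modulo `9` the cofactor `x + y` becomes, up to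
a cube, a product of three coprime linear forms with sum zero. These are two cubes and `P` times a
cube, a smaller solution.
-/

set_option autoImplicit false
set_option linter.style.haveILetI false

noncomputable section

open WeierstrassCurve

namespace FA.Sylvester

open FA.Torsion.X35 (exists_cube)

variable {p k : ℕ}

/-- The residues of the two irreducible cubic forms modulo `9`. -/
theorem forms_mod_nine : ∀ m n : ZMod 9, m + n ≠ 0 ∧ m + n ≠ 3 ∧ m + n ≠ 6 →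
    ((m ^ 3 - 3 * m * n ^ 2 + n ^ 3) + 3 * (m * n * (m - n)) = 1 ∨
      (m ^ 3 - 3 * m * n ^ 2 + n ^ 3) + 3 * (m * n * (m - n)) = 8) ∧
    ((m ^ 3 - 3 * m * n ^ 2 + n ^ 3) - 2 * (3 * (m * n * (m - n))) = 1 ∨
      (m ^ 3 - 3 * m * n ^ 2 + n ^ 3) - 2 * (3 * (m * n * (m - n))) = 8) := by
  decide +kernel

/-- `P` times a cube is not `±1` modulo `9`. -/
theorem ne_pm_one {P : ℕ} (hP : P % 9 = 2 ∨ P % 9 = 4 ∨ P % 9 = 5 ∨ P % 9 = 7) {c : ℤ} :
    ¬(((P : ℤ) * c ^ 3 : ℤ) : ZMod 9) = 1 ∧ ¬(((P : ℤ) * c ^ 3 : ℤ) : ZMod 9) = 8 := by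
  have h : ∀ R C : ZMod 9, R = 2 ∨ R = 4 ∨ R = 5 ∨ R = 7 → ¬ R * C ^ 3 = 1 ∧ ¬ R * C ^ 3 = 8 := by
    decide +kernel
  have hR : (P : ZMod 9) = 2 ∨ (P : ZMod 9) = 4 ∨ (P : ZMod 9) = 5 ∨ (P : ZMod 9) = 7 := by
    rw [← ZMod.natCast_mod]
    rcases hP with e | e | e | e <;> simp [e]
  simpa using h (P : ZMod 9) (c : ZMod 9) hR

/-- A prime `p ≡ 2 (mod 3)` does not divide a primitive `x² - x y + y²`. -/
theorem not_dvd_norm [hp : Fact p.Prime] (h3 : p % 3 = 2) {x y : ℤ} (hxy : IsCoprime x y) :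
    ¬(p : ℤ) ∣ x ^ 2 - x * y + y ^ 2 := by
  intro h
  have e : (x : ZMod p) ^ 2 - x * y + (y : ZMod p) ^ 2 = 0 := by
    have := (ZMod.intCast_zmod_eq_zero_iff_dvd _ p).mpr h
    push_cast at this; exact this
  have hy : (y : ZMod p) ≠ 0 := fun hy => by
    have hx : (x : ZMod p) = 0 := by
      rw [hy] at e; simpa using e
    exact (Nat.prime_iff_prime_int.mp hp.out).not_isUnit (hxy.isUnit_of_dvd'
      ((ZMod.intCast_zmod_eq_zero_iff_dvd _ p).mp hx)
      ((ZMod.intCast_zmod_eq_zero_iff_dvd _ p).mp hy))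
  obtain ⟨r, hr⟩ : ∃ r : ZMod p, r = -(x : ZMod p) / y := ⟨_, rfl⟩
  have hr2 : r ^ 2 + r + 1 = 0 := by
    rw [hr]; field_simp; linear_combination e
  have hr0 : r ≠ 0 := fun e => by simp [e] at hr2
  have hr3 : r ^ 3 = 1 := by linear_combination (r - 1) * hr2
  have h1 := ZMod.pow_card_sub_one_eq_one hr0
  rw [show p - 1 = 3 * (p / 3) + 1 by omega, pow_succ, pow_mul, hr3, one_pow, one_mul] at h1
  rw [h1] at hr2
  have h3' : ((3 : ℕ) : ZMod p) = 0 := by push_cast; linear_combination hr2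
  have := (Nat.prime_dvd_prime_iff_eq hp.out Nat.prime_three).mp
    ((ZMod.natCast_eq_zero_iff _ _).mp h3')
  omega

/-- Of two coprime factors with `p ^ k` times a cube as product, the one prime to `p` is a cube,
the other `p ^ k` times a cube. -/
theorem split [hp : Fact p.Prime] {s t C : ℤ} (hst : IsCoprime s t) (ht : ¬(p : ℤ) ∣ t)
    (h : s * t = ((p ^ k : ℕ) : ℤ) * C ^ 3) :
    ∃ S T, s = ((p ^ k : ℕ) : ℤ) * S ^ 3 ∧ t = T ^ 3 ∧ C = S * T := by
  have hP : Prime (p : ℤ) := Nat.prime_iff_prime_int.mp hp.out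
  have hco : IsCoprime ((p ^ k : ℕ) : ℤ) t := by
    push_cast; exact (hP.coprime_iff_not_dvd.mpr ht).pow_left
  obtain ⟨s', rfl⟩ := hco.dvd_of_dvd_mul_right ⟨C ^ 3, h⟩
  have e : s' * t = C ^ 3 := mul_left_cancel₀
    (show ((p ^ k : ℕ) : ℤ) ≠ 0 from Nat.cast_ne_zero.mpr (pow_ne_zero k hp.out.ne_zero))
    (by linear_combination h)
  obtain ⟨⟨S, rfl⟩, T, rfl⟩ :=
    Int.eq_pow_of_mul_eq_pow_odd hst.of_mul_left_right (k := 3) (by decide) e
  exact ⟨S, T, rfl, rfl, (Odd.pow_inj (by decide : Odd 3)).mp (by linear_combination -e)⟩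

/-- Three coprime integers with sum zero and product `p ^ k c³` give a solution with `|Z| ≤ |c|`,
trivial only if two of them are equal. -/
theorem of_three [hp : Fact p.Prime] (hk : k ≠ 0) {u v w c : ℤ} (hs : u + v + w = 0)
    (huv : IsCoprime u v) (h : u * v * w = ((p ^ k : ℕ) : ℤ) * c ^ 3) (hc : c ≠ 0) :
    ∃ X Y Z : ℤ, IsCoprime X Y ∧ X ^ 3 + Y ^ 3 = ((p ^ k : ℕ) : ℤ) * Z ^ 3 ∧ Z ≠ 0 ∧
      Z.natAbs ≤ c.natAbs ∧ (X = Y → u = v ∨ v = w ∨ w = u) := by
  have hP : Prime (p : ℤ) := Nat.prime_iff_prime_int.mp hp.out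
  suffices H : ∀ a b d : ℤ, a + b + d = 0 → IsCoprime a b →
      a * b * d = ((p ^ k : ℕ) : ℤ) * c ^ 3 → (p : ℤ) ∣ d →
      ∃ X Y Z : ℤ, IsCoprime X Y ∧ X ^ 3 + Y ^ 3 = ((p ^ k : ℕ) : ℤ) * Z ^ 3 ∧ Z ≠ 0 ∧
        Z.natAbs ≤ c.natAbs ∧ (X = Y → a = b) by
    have hvw : IsCoprime v w := by
      rw [show w = -u + v * (-1) by linear_combination hs]
      exact huv.symm.neg_right.add_mul_left_right _
    have hwu : IsCoprime w u := by
      rw [show w = -v + u * (-1) by linear_combination hs]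
      exact (huv.neg_right.add_mul_left_right _).symm
    have hd : (p : ℤ) ∣ u * v * w := by
      rw [h]; push_cast; exact dvd_mul_of_dvd_left (dvd_pow_self _ hk) _
    rcases hP.dvd_mul.mp hd with hd | hd
    · rcases hP.dvd_mul.mp hd with hd | hd
      · obtain ⟨X, Y, Z, h1, h2, h3, h4, h5⟩ :=
          H v w u (by linear_combination hs) hvw (by linear_combination h) hd
        exact ⟨X, Y, Z, h1, h2, h3, h4, fun e => Or.inr (Or.inl (h5 e))⟩
      · obtain ⟨X, Y, Z, h1, h2, h3, h4, h5⟩ :=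
          H w u v (by linear_combination hs) hwu (by linear_combination h) hd
        exact ⟨X, Y, Z, h1, h2, h3, h4, fun e => Or.inr (Or.inr (h5 e))⟩
    · obtain ⟨X, Y, Z, h1, h2, h3, h4, h5⟩ := H u v w hs huv h hd
      exact ⟨X, Y, Z, h1, h2, h3, h4, fun e => Or.inl (h5 e)⟩
  intro a b d hs hab h hd
  have hd2 : IsCoprime d (a * b) := by
    rw [show d = -a + b * (-1) by linear_combination hs]
    refine IsCoprime.mul_right ?_ ?_
    · rw [show -a + b * (-1) = -b + a * (-1) by ring]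
      exact (hab.neg_right.add_mul_left_right _).symm
    · exact (hab.symm.neg_right.add_mul_left_right _).symm
  have hnd : ¬(p : ℤ) ∣ a * b := fun e => hP.not_isUnit (hd2.isUnit_of_dvd' hd e)
  obtain ⟨Z, T, rfl, hT, rfl⟩ := split (k := k) hd2 hnd (C := c) (by linear_combination h)
  obtain ⟨⟨X, rfl⟩, Y, rfl⟩ :=
    Int.eq_pow_of_mul_eq_pow_odd hab (k := 3) (by decide) hT
  refine ⟨-X, -Y, Z, ((IsCoprime.pow_iff (by norm_num) (by norm_num)).mp hab).neg_neg,
    by linear_combination -hs, left_ne_zero_of_mul hc, ?_, fun e => by rw [neg_inj.mp e]⟩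
  rw [Int.natAbs_mul]
  exact Nat.le_mul_of_pos_right _ (Int.natAbs_pos.mpr (right_ne_zero_of_mul hc))

/-- A primitive solution other than `1 + 1 = 2` has a smaller one. -/
theorem descent [hp : Fact p.Prime] (h3 : p % 3 = 2) (hk : k ≠ 0)
    (h9 : p ^ k % 9 = 2 ∨ p ^ k % 9 = 4 ∨ p ^ k % 9 = 5 ∨ p ^ k % 9 = 7) {x y z : ℤ}
    (hxy : IsCoprime x y) (h : x ^ 3 + y ^ 3 = ((p ^ k : ℕ) : ℤ) * z ^ 3) (hz : z ≠ 0)
    (hne : ¬(p ^ k = 2 ∧ x = y)) :
    ∃ X Y Z : ℤ, IsCoprime X Y ∧ X ^ 3 + Y ^ 3 = ((p ^ k : ℕ) : ℤ) * Z ^ 3 ∧ Z ≠ 0 ∧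
      Z.natAbs < z.natAbs ∧ X ≠ Y := by
  by_cases hs : (3 : ℤ) ∣ x + y
  · obtain ⟨t, ht⟩ := hs
    obtain rfl : x = 3 * t - y := by linear_combination ht
    have h9t : 9 * (t * ((y - t) ^ 2 - (y - t) * t + t ^ 2)) =
        ((p ^ k : ℕ) : ℤ) * z ^ 3 := by
      linear_combination h
    have h3z : (3 : ℤ) ∣ z := by
      have hd : (3 : ℤ) ∣ ((p ^ k : ℕ) : ℤ) * z ^ 3 :=
        ⟨3 * (t * ((y - t) ^ 2 - (y - t) * t + t ^ 2)), by linear_combination -h9t⟩
      exact Int.prime_three.dvd_of_dvd_pow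
        ((Int.prime_three.dvd_mul.mp hd).resolve_left fun e => by omega)
    obtain ⟨z', rfl⟩ := h3z
    have hprod : t * ((y - t) ^ 2 - (y - t) * t + t ^ 2) = ((p ^ k : ℕ) : ℤ) * (3 * z' ^ 3) :=
      mul_left_cancel₀ (by norm_num : (9 : ℤ) ≠ 0) (by linear_combination h9t)
    have hyt : IsCoprime (y - t) t := by
      obtain ⟨a, b, e⟩ := hxy
      exact ⟨b - a, 3 * a + (b - a), by linear_combination e⟩
    have hy3 : ¬(3 : ℤ) ∣ y := fun e => Int.prime_three.not_isUnit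
      (hxy.isUnit_of_dvd' (dvd_sub (dvd_mul_right _ _) e) e)
    have hN3 : IsCoprime 3 ((y - t) ^ 2 - (y - t) * t + t ^ 2) := by
      rw [show (y - t) ^ 2 - (y - t) * t + t ^ 2 = y ^ 2 + 3 * (t ^ 2 - y * t) by ring]
      exact ((Int.prime_three.coprime_iff_not_dvd.mpr hy3).pow_right).add_mul_left_right _
    have hNt : IsCoprime t ((y - t) ^ 2 - (y - t) * t + t ^ 2) := by
      rw [show (y - t) ^ 2 - (y - t) * t + t ^ 2 = (y - t) ^ 2 + t * (2 * t - y) by ring]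
      exact hyt.symm.pow_right.add_mul_left_right _
    obtain ⟨t', rfl⟩ : (3 : ℤ) ∣ t := hN3.dvd_of_dvd_mul_right
      ⟨((p ^ k : ℕ) : ℤ) * z' ^ 3, by rw [hprod]; ring⟩
    obtain ⟨c, M, rfl, hM, rfl⟩ := split (k := k) (s := t') hNt.of_mul_left_right
      (not_dvd_norm h3 hyt)
      (C := z') (mul_left_cancel₀ (by norm_num : (3 : ℤ) ≠ 0) (by linear_combination hprod))
    obtain ⟨m, n, a, b, rfl, rfl, hMn, H⟩ := exists_cube hyt
      (by rwa [sub_add_cancel]) hM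
    have hc : c ≠ 0 := left_ne_zero_of_mul (right_ne_zero_of_mul hz)
    have key : 3 * (((p ^ k : ℕ) : ℤ) * c ^ 3) = 3 * (m * n * (m - n)) := by
      rcases H with ⟨-, hq⟩ | ⟨hq', hq⟩ | ⟨hq', hq⟩
      · exact hq
      · exact absurd ⟨((p ^ k : ℕ) : ℤ) * c ^ 3 - m * n * (m - n), by linarith⟩ hy3
      · exact absurd ⟨m * n * (m - n) + 2 * (((p ^ k : ℕ) : ℤ) * c ^ 3), by linarith⟩ hy3
    have hmn : IsCoprime m n := by
      refine isCoprime_of_prime_dvd ?_ fun q hq hm hn => hq.not_isUnit ?_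
      · rintro ⟨rfl, rfl⟩; simp_all
      have : q ∣ 3 * (((p ^ k : ℕ) : ℤ) * c ^ 3) := by
        rw [key]; exact dvd_mul_of_dvd_right (dvd_mul_of_dvd_left (dvd_mul_of_dvd_left hm _) _) _
      refine hNt.isUnit_of_dvd' this (hM ▸ dvd_pow ?_ (by norm_num))
      rw [hMn]
      exact dvd_add (dvd_sub (dvd_pow hm two_ne_zero) (dvd_mul_of_dvd_left hm _))
        (dvd_pow hn two_ne_zero)
    obtain ⟨X, Y, Z, hXY, hZ, hZ0, hle, heq⟩ := of_three (p := p) (k := k) hk (u := m) (v := -n)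
      (w := n - m) (by ring) hmn.neg_right (c := c) (by linarith) hc
    refine ⟨X, Y, Z, hXY, hZ, hZ0, hle.trans_lt ?_, fun e => ?_⟩
    swap
    · obtain ⟨w, hw⟩ : (3 : ℤ) ∣ M := by
        rcases heq e with e | e | e
        · obtain rfl : m = -n := e
          exact ⟨n ^ 2, by rw [hMn]; ring⟩
        · obtain rfl : m = 2 * n := by linarith
          exact ⟨n ^ 2, by rw [hMn]; ring⟩
        · obtain rfl : n = 2 * m := by linarith
          exact ⟨m ^ 2, by rw [hMn]; ring⟩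
      rw [hM] at hN3
      exact Int.prime_three.not_isUnit (hN3.isUnit_of_dvd' dvd_rfl
        (dvd_pow ⟨w, hw⟩ (by norm_num)))
    simp only [ne_eq, mul_eq_zero, not_or] at hz
    rw [Int.natAbs_mul, Int.natAbs_mul]
    have h1 := Int.natAbs_pos.mpr hz.2.2
    have h2 := Int.natAbs_pos.mpr hc
    rw [show Int.natAbs 3 = 3 from rfl]
    nlinarith [Nat.le_mul_of_pos_right c.natAbs h1]
  · have hN3 : IsCoprime (x + y) (x ^ 2 - x * y + y ^ 2) := by
      rw [show x ^ 2 - x * y + y ^ 2 = 3 * y ^ 2 + (x + y) * (x - 2 * y) by ring]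
      refine ((Int.prime_three.coprime_iff_not_dvd.mpr hs).symm.mul_right
        ?_).add_mul_left_right _
      rw [show x + y = x + y * 1 by ring]
      exact (hxy.add_mul_left_left 1).pow_right
    obtain ⟨c, M, hc, hM, rfl⟩ := split (k := k) hN3 (not_dvd_norm h3 hxy) (C := z)
      (by linear_combination h)
    obtain ⟨m, n, a, b, rfl, rfl, hMn, H⟩ := exists_cube hxy hs hM
    have hM0 : 2 ≤ M := by
      by_contra hlt
      have hM0 : 0 ≤ M := (Odd.pow_nonneg_iff (by decide : Odd 3)).mp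
        (by rw [← hM]; nlinarith [sq_nonneg (2 * x - y), sq_nonneg y])
      obtain rfl : M = 1 := by
        have := right_ne_zero_of_mul hz
        omega
      have hb : (x + y) ^ 2 + 3 * (x - y) ^ 2 = 4 := by linear_combination 4 * hM
      have h1 : 1 ≤ (c ^ 3) ^ 2 := by
        have : c ^ 3 ≠ 0 := pow_ne_zero _ (left_ne_zero_of_mul hz)
        nlinarith [mul_self_pos.mpr this]
      have hP2 : (2 : ℤ) ≤ ((p ^ k : ℕ) : ℤ) := by
        exact_mod_cast hp.out.two_le.trans (Nat.le_self_pow hk p)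
      rw [hc] at hb
      have hle := mul_le_mul_of_nonneg_left h1 (sq_nonneg ((p ^ k : ℕ) : ℤ))
      refine hne ⟨?_, ?_⟩
      · have : ((p ^ k : ℕ) : ℤ) ≤ 2 := by nlinarith [sq_nonneg (x - y)]
        have : p ^ k ≤ 2 := by exact_mod_cast this
        omega
      · have : 3 * (x - y) ^ 2 ≤ 0 := by nlinarith [mul_le_mul hP2 hP2 (by norm_num) (by linarith)]
        have : (x - y) ^ 2 = 0 := le_antisymm (by linarith) (sq_nonneg _)
        linarith [pow_eq_zero_iff two_ne_zero |>.mp this]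
    have hsum : ¬(3 : ℤ) ∣ m + n := by
      rintro ⟨k, hk⟩
      obtain ⟨w, hw⟩ : (3 : ℤ) ∣ M :=
        ⟨3 * k ^ 2 - m * n, by rw [hMn]; linear_combination (m + n + 3 * k) * hk⟩
      refine hs (Int.prime_three.dvd_of_dvd_pow (n := 2) ⟨9 * w ^ 3 + x * y, ?_⟩)
      rw [hw] at hM; linear_combination hM
    have h9' : (m : ZMod 9) + n ≠ 0 ∧ (m : ZMod 9) + n ≠ 3 ∧ (m : ZMod 9) + n ≠ 6 := by
      have key : ∀ r : ℤ, (3 : ℤ) ∣ r → (m : ZMod 9) + n ≠ r := fun r hr e => hsum (by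
        obtain ⟨k, hk⟩ := hr
        obtain ⟨l, hl⟩ := (ZMod.intCast_eq_intCast_iff_dvd_sub (m + n) r 9).mp
          (by push_cast; exact e)
        omega)
      exact ⟨by simpa using key 0 (dvd_zero _), by simpa using key 3 dvd_rfl,
        by simpa using key 6 (by norm_num)⟩
    obtain ⟨h1, h2⟩ := forms_mod_nine _ _ h9'
    obtain ⟨hn1, hn8⟩ := ne_pm_one h9 (c := c)
    rcases H with ⟨rfl, rfl⟩ | ⟨rfl, rfl⟩ | ⟨rfl, rfl⟩
    · rw [← hc] at hn1 hn8; push_cast at hn1 hn8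
      exact (h1.elim hn1 hn8).elim
    · rw [← hc] at hn1 hn8; push_cast at hn1 hn8
      ring_nf at h2 hn1 hn8
      exact (h2.elim hn1 hn8).elim
    have hmn : IsCoprime m n := by
      refine isCoprime_of_prime_dvd ?_ fun q hq hm hn => hq.not_isUnit ?_
      · rintro ⟨rfl, rfl⟩; simp at hsum
      exact hxy.isUnit_of_dvd'
        (dvd_sub (dvd_mul_of_dvd_right (dvd_mul_of_dvd_left (dvd_mul_of_dvd_left hm _) _) _)
          (dvd_add (dvd_sub (dvd_pow hm (by norm_num)) (dvd_mul_of_dvd_left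
            (dvd_mul_of_dvd_right hm _) _)) (dvd_pow hn (by norm_num))))
        (dvd_neg.mpr (dvd_add (dvd_sub (dvd_pow hm (by norm_num)) (dvd_mul_of_dvd_left
            (dvd_mul_of_dvd_right hm _) _)) (dvd_pow hn (by norm_num))))
    have huv : IsCoprime (m + n) (m - 2 * n) := by
      rw [show m - 2 * n = 3 * -n + (m + n) * 1 by ring]
      refine ((Int.prime_three.coprime_iff_not_dvd.mpr hsum).symm.mul_right
        ?_).add_mul_left_right _
      rw [show m + n = m + n * 1 by ring]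
      exact (hmn.add_mul_left_left 1).neg_right
    obtain ⟨X, Y, Z, hXY, hZ, hZ0, hle, heq⟩ := of_three (p := p) (k := k) hk (w := n - 2 * m)
      (by ring) huv (c := c) (by linear_combination hc) (left_ne_zero_of_mul hz)
    refine ⟨X, Y, Z, hXY, hZ, hZ0, hle.trans_lt ?_, fun e => ?_⟩
    swap
    · have hone : M = 1 := by
        rcases heq e with e | e | e
        · obtain rfl : n = 0 := by linarith
          rcases Int.isUnit_iff.mp (isCoprime_zero_right.mp hmn) with rfl | rfl <;> simpa using hMn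
        · obtain rfl : m = n := by linarith
          rcases Int.isUnit_iff.mp (isCoprime_self.mp hmn) with rfl | rfl <;> simpa using hMn
        · obtain rfl : m = 0 := by linarith
          rcases Int.isUnit_iff.mp (isCoprime_zero_left.mp hmn) with rfl | rfl <;> simpa using hMn
      omega
    rw [Int.natAbs_mul]
    exact lt_mul_of_one_lt_right (Int.natAbs_pos.mpr (left_ne_zero_of_mul hz)) (by omega)

/-- For a prime `p ≡ 2 (mod 3)` with `P = p ^ k ≢ ±1 (mod 9)`, `k ≠ 0`, the only primitive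
solutions of `x³ + y³ = P z³` with `z ≠ 0` are `1 + 1 = 2`. -/
theorem no_solution [hp : Fact p.Prime] (h3 : p % 3 = 2) (hk : k ≠ 0)
    (h9 : p ^ k % 9 = 2 ∨ p ^ k % 9 = 4 ∨ p ^ k % 9 = 5 ∨ p ^ k % 9 = 7) :
    ∀ (N : ℕ) (x y z : ℤ), z.natAbs = N → IsCoprime x y →
      x ^ 3 + y ^ 3 = ((p ^ k : ℕ) : ℤ) * z ^ 3 → z = 0 ∨ p ^ k = 2 ∧ x = y := by
  intro N
  induction N using Nat.strong_induction_on with
  | _ N ih =>
    intro x y z hN hxy h
    refine or_iff_not_imp_left.mpr fun hz => ?_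
    by_contra hne
    obtain ⟨X, Y, Z, hXY, hZ, hZ0, hlt, hXne⟩ := descent h3 hk h9 hxy h hz hne
    exact hXne ((ih _ (hN ▸ hlt) X Y Z rfl hXY hZ).resolve_left hZ0).2

/-- A power `p ^ k`, `k ∈ {1, 2}`, other than `2` of a prime `p ≡ 2, 5 (mod 9)` is not a sum of two
rational cubes. -/
theorem pow_not_sum_two_cubes {p k : ℕ} (hp : p.Prime) (hk : k = 1 ∨ k = 2) (hP2 : p ^ k ≠ 2)
    (hp9 : p % 9 = 2 ∨ p % 9 = 5) (a b : ℚ) : a ^ 3 + b ^ 3 ≠ ((p ^ k : ℕ) : ℚ) := by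
  have h3 : p % 3 = 2 := by omega
  have hk0 : k ≠ 0 := by omega
  have h9 : p ^ k % 9 = 2 ∨ p ^ k % 9 = 4 ∨ p ^ k % 9 = 5 ∨ p ^ k % 9 = 7 := by
    rw [Nat.pow_mod]
    rcases hk with rfl | rfl <;> rcases hp9 with e | e <;> rw [e] <;> norm_num
  haveI := Fact.mk hp
  intro h
  have hg : 0 < Int.gcd (a.num * b.den) (b.num * a.den) := by
    refine Nat.pos_of_ne_zero fun e => ?_
    obtain ⟨h1, h2⟩ := Int.gcd_eq_zero_iff.mp e
    simp only [mul_eq_zero, Rat.num_eq_zero, Nat.cast_eq_zero, Rat.den_ne_zero, or_false] at h1 h2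
    rw [h1, h2] at h
    exact pow_ne_zero k hp.ne_zero
      (by exact_mod_cast h.symm.trans (by norm_num : (0 : ℚ) ^ 3 + 0 ^ 3 = 0))
  obtain ⟨x, y, hxy, hx, hy⟩ := Int.exists_gcd_one hg
  generalize Int.gcd (a.num * b.den) (b.num * a.den) = g at hg hx hy
  obtain ⟨w, hw⟩ : ∃ w : ℚ, w = (a.den * b.den : ℕ) / (g : ℚ) := ⟨_, rfl⟩
  have hw0 : w ≠ 0 := by rw [hw]; positivity
  have hg' : (g : ℚ) ≠ 0 := by exact_mod_cast hg.ne'
  have hxq : (x : ℚ) = a * w := by
    have e : (a.num : ℚ) * b.den = x * g := by exact_mod_cast hx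
    rw [← Rat.mul_den_eq_num a] at e
    rw [hw]; push_cast; field_simp; linear_combination -e
  have hyq : (y : ℚ) = b * w := by
    have e : (b.num : ℚ) * a.den = y * g := by exact_mod_cast hy
    rw [← Rat.mul_den_eq_num b] at e
    rw [hw]; push_cast; field_simp; linear_combination -e
  have key : ((x ^ 3 + y ^ 3 : ℤ) : ℚ) = ((p ^ k : ℕ) : ℚ) * w ^ 3 := by
    rw [Int.cast_add, Int.cast_pow, Int.cast_pow, hxq, hyq, ← h]; ring
  have hden : w.den = 1 := by
    have e : (x ^ 3 + y ^ 3) * (w.den : ℤ) ^ 3 =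
        ((p ^ k : ℕ) : ℤ) * w.num ^ 3 := by
      have : ((x ^ 3 + y ^ 3 : ℤ) : ℚ) * (w.den : ℚ) ^ 3 =
          ((p ^ k : ℕ) : ℚ) * (w.num : ℚ) ^ 3 := by
        rw [key, ← Rat.mul_den_eq_num w]; ring
      exact_mod_cast this
    have hd : w.den ^ 3 ∣ p ^ k := by
      have : ((w.den : ℤ) ^ 3) ∣ ((p ^ k : ℕ) : ℤ) := IsCoprime.dvd_of_dvd_mul_right
        ((Rat.isCoprime_num_den w).symm.pow) (e ▸ dvd_mul_left _ _)
      exact_mod_cast this
    obtain ⟨j, -, hj⟩ := (Nat.dvd_prime_pow hp).mp ((dvd_pow_self _ three_ne_zero).trans hd)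
    rw [hj, ← pow_mul, Nat.pow_dvd_pow_iff_le_right hp.one_lt] at hd
    rw [hj, show j = 0 by omega, pow_zero]
  obtain ⟨z, rfl⟩ : ∃ z : ℤ, w = z := ⟨w.num, ((Rat.den_eq_one_iff w).mp hden).symm⟩
  rcases no_solution h3 hk0 h9 _ x y z rfl (Int.isCoprime_iff_gcd_eq_one.mpr hxy)
      (by exact_mod_cast key) with hz | hz
  · exact hw0 (by rw [hz]; rfl)
  · exact hP2 hz.1

end FA.Sylvester

namespace FA.Summary

/-- **Sylvester**: an odd prime `p ≡ 2, 5 (mod 9)` is not a sum of two rational cubes. -/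
theorem prime_two_five_mod_nine_not_sum_two_cubes {p : ℕ} (hp : p.Prime) (hp2 : p ≠ 2)
    (h9 : p % 9 = 2 ∨ p % 9 = 5) (a b : ℚ) : a ^ 3 + b ^ 3 ≠ p := by
  simpa using FA.Sylvester.pow_not_sum_two_cubes hp (Or.inl rfl) (by simpa using hp2) h9 a b

/-- **Sylvester**: the square of a prime `p ≡ 2, 5 (mod 9)` is not a sum of two rational cubes. -/
theorem sq_prime_two_five_mod_nine_not_sum_two_cubes {p : ℕ} (hp : p.Prime)
    (h9 : p % 9 = 2 ∨ p % 9 = 5) (a b : ℚ) : a ^ 3 + b ^ 3 ≠ (p : ℚ) ^ 2 := by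
  exact_mod_cast FA.Sylvester.pow_not_sum_two_cubes hp (Or.inr rfl)
    (by nlinarith [hp.two_le]) h9 a b

/-- `y² = x³ - 432 p²` has no rational solution for an odd prime `p ≡ 2, 5 (mod 9)`. -/
theorem no_rational_solution_sylvester {p : ℕ} (hp : p.Prime) (hp2 : p ≠ 2)
    (h9 : p % 9 = 2 ∨ p % 9 = 5) (x y : ℚ) : y ^ 2 ≠ x ^ 3 - 432 * (p : ℚ) ^ 2 := by
  intro h
  have hx : x ≠ 0 := fun e => by
    have : (0 : ℚ) < p := by exact_mod_cast hp.pos
    rw [e] at h; nlinarith [sq_nonneg y, mul_pos this this]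
  refine prime_two_five_mod_nine_not_sum_two_cubes hp hp2 h9 ((36 * p + y) / (6 * x))
    ((36 * p - y) / (6 * x)) ?_
  field_simp
  linear_combination 216 * (p : ℚ) * h

/-- The group of rational points of `y² = x³ - 432 p²` is trivial for an odd prime
`p ≡ 2, 5 (mod 9)`. -/
theorem point_group_sylvester {p : ℕ} (hp : p.Prime) (hp2 : p ≠ 2) (h9 : p % 9 = 2 ∨ p % 9 = 5) :
    Subsingleton (⟨0, 0, 0, 0, -432 * (p : ℚ) ^ 2⟩ : WeierstrassCurve ℚ).toAffine.Point := by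
  refine subsingleton_of_forall_eq 0 fun P => ?_
  cases P with
  | zero => rfl
  | some x y hns =>
    have := (Affine.equation_iff x y).mp hns.1
    simp only [zero_mul, add_zero] at this
    exact absurd (by linear_combination this) (no_rational_solution_sylvester hp hp2 h9 x y)

end FA.Summary

end
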