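import Fermat.Agent.MordellCurve.Cubic
import Fermat.Agent.MordellCurve.Sylvester
import Fermat.Agent.CongruentNumber.Aigner

/-!
# Fermat's cubic in quadratic fields

A solution of `x³ + y³ = 1` in a quadratic field can be permuted to one with `x + y` rational,
the third intersection of the rational line through it being one of the rational points.
-/

set_option autoImplicit false

noncomputable section

namespace FA.QuadraticCubic

open FA.Aigner

variable {K : Type*} [Field K] [CharZero K]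

theorem exists_rational_sum (hK : Module.finrank ℚ K = 2) {x y : K} (hx : x ≠ 0) (hy : y ≠ 0)
    (hxi : ∀ r : ℚ, (r : K) ≠ x) (h : x ^ 3 + y ^ 3 = 1) :
    ∃ X Y : K, X ≠ 0 ∧ Y ≠ 0 ∧ X ^ 3 + Y ^ 3 = 1 ∧ (∃ S : ℚ, X + Y = S) ∧
      ∀ (m : ℕ) (a b : K), x = a ^ m → y = b ^ m → ∃ w, Y = w ^ m := by
  obtain ⟨α, β, hαβ⟩ := exists_add_mul hK hxi y
  obtain ⟨q, p, hpq⟩ := exists_add_mul hK hxi (x * x)
  obtain ⟨h0, h1⟩ := eq_zero_of_add_mul hxi
    (a := (1 + β ^ 3) * p * q + 3 * α * β ^ 2 * q + α ^ 3 - 1)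
    (b := (1 + β ^ 3) * (p ^ 2 + q) + 3 * α * β ^ 2 * p + 3 * α ^ 2 * β) (by
      push_cast
      rw [hαβ] at h
      linear_combination h
        - ((1 + (β : K) ^ 3) * (x + p) + 3 * α * β ^ 2) * hpq)
  by_cases h3 : 1 + β ^ 3 = 0
  · refine ⟨x, y, hx, hy, h, ⟨α, ?_⟩, fun _ _ b _ hb => ⟨b, hb⟩⟩
    have hb : β = -1 := (Odd.pow_inj (by decide : Odd 3)).1 (by linear_combination h3)
    rw [hαβ, hb]
    push_cast
    ring
  obtain ⟨r, hr⟩ : ∃ r, r * (1 + β ^ 3) = -(3 * α * β ^ 2 + (1 + β ^ 3) * p) :=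
    ⟨-(3 * α * β ^ 2 + (1 + β ^ 3) * p) / (1 + β ^ 3), div_mul_cancel₀ _ h3⟩
  rcases FA.Summary.fermat_cubic_points (u := r) (v := α + β * r)
    (by linear_combination r * h1 + h0 + (r ^ 2 - p * r - q) * hr) with ⟨hr0, hv⟩ | ⟨hr1, hv⟩
  · refine ⟨-y / x, 1 / x, div_ne_zero (neg_ne_zero.2 hy) hx, div_ne_zero one_ne_zero hx, ?_,
      ⟨-β, ?_⟩, fun _ a _ ha _ => ⟨1 / a, by rw [ha, div_pow, one_pow]⟩⟩
    · field_simp
      linear_combination -h
    · subst hr0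
      obtain rfl : α = 1 := by linarith
      rw [hαβ]
      push_cast
      field_simp
      ring
  · subst hr1
    obtain rfl : α = -β := by linarith
    have hb : β ≠ 0 := fun e => hy (by rw [hαβ, e]; simp)
    refine ⟨-x / y, 1 / y, div_ne_zero (neg_ne_zero.2 hx) hy, div_ne_zero one_ne_zero hy, ?_,
      ⟨-1 / β, ?_⟩,
      fun _ _ b _ hb => ⟨1 / b, by rw [hb, div_pow, one_pow]⟩⟩
    · field_simp
      linear_combination -h
    · have hb' : (β : K) ≠ 0 := Rat.cast_ne_zero.2 hb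
      push_cast at hαβ ⊢
      field_simp
      linear_combination hαβ

/-- A solution gives a point of the twist `Y² = X³ - 432 d³`. -/
theorem exists_twist_point (hK : Module.finrank ℚ K = 2) {d : ℚ} (hd : ¬ IsSquare d) {r : K}
    (hr : r ^ 2 = d) {x y : K} (hx : x ≠ 0) (hy : y ≠ 0) (h : x ^ 3 + y ^ 3 = 1) :
    ∃ X Y : ℚ, X ≠ 0 ∧ Y ^ 2 = X ^ 3 - 432 * d ^ 3 := by
  have hrq : ∀ a : ℚ, (a : K) ≠ r := fun a e => hd
    ⟨a, Rat.cast_injective (α := K) (by push_cast; rw [← hr, ← e]; ring)⟩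
  obtain ⟨X, Y, hX, hY, hXY, S, hS⟩ : ∃ X Y : K, X ≠ 0 ∧ Y ≠ 0 ∧ X ^ 3 + Y ^ 3 = 1 ∧
      ∃ S : ℚ, X + Y = S := by
    by_cases hxi : ∀ a : ℚ, (a : K) ≠ x
    · obtain ⟨X, Y, h1, h2, h3, h4, -⟩ := exists_rational_sum hK hx hy hxi h
      exact ⟨X, Y, h1, h2, h3, h4⟩
    by_cases hyi : ∀ b : ℚ, (b : K) ≠ y
    · obtain ⟨X, Y, h1, h2, h3, h4, -⟩ :=
        exists_rational_sum hK hy hx hyi (by linear_combination h)
      exact ⟨X, Y, h1, h2, h3, h4⟩
    push Not at hxi hyi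
    obtain ⟨a, rfl⟩ := hxi
    obtain ⟨b, rfl⟩ := hyi
    rcases FA.Summary.fermat_cubic_points (u := a) (v := b) (by exact_mod_cast h) with
      ⟨e, -⟩ | ⟨-, e⟩
    · exact absurd (by rw [e, Rat.cast_zero]) hx
    · exact absurd (by rw [e, Rat.cast_zero]) hy
  have hS0 : (S : K) ≠ 0 := fun e => by
    have : X = -Y := by linear_combination hS + e
    rw [this] at hXY
    exact zero_ne_one (α := K) (by linear_combination hXY)
  obtain ⟨a, b, hab⟩ := exists_add_mul hK hrq (X - Y)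
  obtain ⟨e1, e2⟩ := eq_zero_of_add_mul hrq (a := 3 * S * (a ^ 2 + b ^ 2 * d) - (4 - S ^ 3))
    (b := 3 * S * (2 * a * b)) (by
      push_cast
      rw [← hS, ← hr]
      linear_combination -(3 * (X + Y) * (X - Y + a + b * r)) * hab + 4 * hXY)
  have hSq : S ≠ 0 := fun e => hS0 (by rw [e, Rat.cast_zero])
  rcases mul_eq_zero.1 ((mul_eq_zero.1 e2).resolve_left (mul_ne_zero three_ne_zero hSq)) with e | e
  · obtain rfl : a = 0 := by linarith
    have hd0 : d ≠ 0 := fun e => hd (by rw [e]; exact IsSquare.zero)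
    refine ⟨12 * d / S, 36 * d ^ 2 * b / S, div_ne_zero (mul_ne_zero (by norm_num) hd0) hSq, ?_⟩
    field_simp
    linear_combination 432 * e1
  · -- `X - Y` is rational, so `X` and `Y` are
    subst e
    exfalso
    have hXq : X = ((S + a) / 2 : ℚ) := by
      push_cast at hab ⊢; linear_combination (hS + hab) / 2
    have hYq : Y = ((S - a) / 2 : ℚ) := by
      push_cast at hab ⊢; linear_combination (hS - hab) / 2
    rw [hXq, hYq] at hXY
    rcases FA.Summary.fermat_cubic_points (u := (S + a) / 2) (v := (S - a) / 2)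
      (Rat.cast_injective (α := K) (by push_cast at hXY ⊢; linear_combination hXY)) with
      ⟨e, -⟩ | ⟨-, e⟩
    · exact hX (by rw [hXq, e, Rat.cast_zero])
    · exact hY (by rw [hYq, e, Rat.cast_zero])

/-- A point of the twist gives a solution. -/
theorem exists_solution {d : ℚ} (hd : ¬ IsSquare d) {r : K} (hr : r ^ 2 = d) {X Y : ℚ}
    (hX : X ≠ 0) (h : Y ^ 2 = X ^ 3 - 432 * d ^ 3) :
    ∃ x y : K, x ≠ 0 ∧ y ≠ 0 ∧ x ^ 3 + y ^ 3 = 1 := by
  have hd0 : d ≠ 0 := fun e => hd (by rw [e]; exact IsSquare.zero)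
  obtain ⟨S, hS⟩ : ∃ S, S = 12 * d / X := ⟨_, rfl⟩
  obtain ⟨b, hb⟩ : ∃ b, b = Y / (3 * d * X) := ⟨_, rfl⟩
  have hS0 : S ≠ 0 := hS ▸ div_ne_zero (mul_ne_zero (by norm_num) hd0) hX
  have key : S ^ 3 + 3 * S * b ^ 2 * d = 4 := by
    rw [hS, hb]
    field_simp
    linear_combination 12 * h
  have hne : ∀ c : ℚ, (S : K) + c * r ≠ 0 := fun c e =>
    hS0 (eq_zero_of_add_mul (fun a ea => hd
      ⟨a, Rat.cast_injective (α := K) (by push_cast; rw [← hr, ← ea]; ring)⟩) e).1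
  refine ⟨((S : K) + b * r) / 2, ((S : K) + (-b : ℚ) * r) / 2,
    div_ne_zero (hne b) two_ne_zero, div_ne_zero (hne (-b)) two_ne_zero, ?_⟩
  have key' : (S : K) ^ 3 + 3 * S * b ^ 2 * d = 4 := by exact_mod_cast key
  push_cast
  linear_combination key' / 4 + 3 * (S : K) * (b : K) ^ 2 / 4 * hr

/-- `x³ + z³ = 2 y³` in integers, `y ≠ 0`: only `x = y = z`. -/
theorem three_cubes_AP {x y z : ℤ} (hy : y ≠ 0) (h : x ^ 3 + z ^ 3 = 2 * y ^ 3) :
    x = y ∧ z = y := by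
  have hne : x ≠ 0 ∨ z ≠ 0 := by
    by_contra hc
    push Not at hc
    rw [hc.1, hc.2] at h
    exact hy (by simpa using h.symm)
  obtain ⟨x', z', hg, ex, ez⟩ := Int.exists_gcd_one (m := x) (n := z) (Int.gcd_pos_iff.2 hne)
  have hg0 : (Int.gcd x z : ℤ) ≠ 0 := by exact_mod_cast (Int.gcd_pos_iff.2 hne).ne'
  generalize (Int.gcd x z : ℤ) = g at ex ez hg0
  subst ex ez
  obtain ⟨t, ht⟩ := (Int.pow_dvd_pow_iff (n := 3) three_ne_zero).1
    (show g ^ 3 ∣ (2 * y) ^ 3 from ⟨4 * (x' ^ 3 + z' ^ 3), by linear_combination -4 * h⟩)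
  have ht3 : t ^ 3 = 4 * (x' ^ 3 + z' ^ 3) := mul_left_cancel₀ (pow_ne_zero 3 hg0) (by
    linear_combination -4 * h - ((2 * y) ^ 2 + 2 * y * (g * t) + (g * t) ^ 2) * ht)
  obtain ⟨w, rfl⟩ : (2 : ℤ) ∣ t := Int.prime_two.dvd_of_dvd_pow (n := 3)
    ⟨2 * (x' ^ 3 + z' ^ 3), by rw [ht3]; ring⟩
  obtain rfl : y = g * w := by linarith
  rcases FA.Sylvester.no_solution (p := 2) (k := 1) (hp := ⟨Nat.prime_two⟩) (by norm_num)
    one_ne_zero (by norm_num) _ x' z' w rfl (Int.isCoprime_iff_gcd_eq_one.2 hg)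
    (by push_cast; linarith) with e | ⟨-, e⟩
  · exact absurd (by rw [e, mul_zero]) hy
  · subst e
    have hxy : (x' * g) ^ 3 = (g * w) ^ 3 := by linarith
    exact ⟨(Odd.pow_inj (by decide : Odd 3)).1 hxy, (Odd.pow_inj (by decide : Odd 3)).1 hxy⟩

/-- `x⁴ + z⁴ = 2 y⁴` in rationals, `y ≠ 0`: only `x⁴ = y⁴ = z⁴`. -/
theorem three_fourth_powers_AP {x y z : ℚ} (hy : y ≠ 0) (h : x ^ 4 + z ^ 4 = 2 * y ^ 4) :
    x ^ 4 = y ^ 4 ∧ z ^ 4 = y ^ 4 := by
  by_cases hxz : x * z = 0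
  · exfalso
    rcases mul_eq_zero.1 hxz with rfl | rfl
    · exact sq_ne_two ((z / y) ^ 2) (by field_simp; linear_combination h)
    · exact sq_ne_two ((x / y) ^ 2) (by field_simp; linear_combination h)
  obtain ⟨hx, hz⟩ := mul_ne_zero_iff.1 hxz
  have hw : (x ^ 4 - z ^ 4) / (2 * x ^ 2 * z ^ 2) = 0 :=
    FA.CongruentNumber.eq_zero_of_pow_four_eq (t := y ^ 2 / (x * z)) (by
      field_simp
      linear_combination -(x ^ 4 + z ^ 4 + 2 * y ^ 4) * h)
  rw [div_eq_zero_iff, or_iff_left (by positivity)] at hw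
  exact ⟨by linarith, by linarith⟩

end FA.QuadraticCubic

end
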