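import Fermat.Agent.CongruentNumber.One
import Fermat.Agent.CongruentNumber.Prime
import Mathlib.Tactic.FieldSimp

/-!
# The rational points of `y² = x³ + 27`

By descent on `a⁴ - 9 a² b² + 27 b⁴ = c²`, whose only solutions in coprime integers have `b = 0`.
-/

set_option autoImplicit false

noncomputable section

namespace FA.Curve144

theorem three_dvd_sq_sum : ∀ a v : ZMod 3, 4 * a ^ 2 + v ^ 4 = 0 → a = 0 := by decide

theorem mod_three_core : ∀ a v : ZMod 3, a ^ 2 + v ^ 4 = 0 → a = 0 := by decide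

theorem mod_sixteen_core : ∀ a u v : ZMod 16,
    4 * a ^ 2 ≠ 18 * ((2 * u + 1) * (2 * v + 1)) ^ 2 + (2 * v + 1) ^ 4 - 27 * (2 * u + 1) ^ 4 := by
  decide +kernel

/-- Coprime positive factors of `27 r⁴`. -/
theorem split {P Q r : ℤ} (hP : 0 < P) (hQ : 0 < Q) (hc : IsCoprime P Q)
    (h : P * Q = 27 * r ^ 4) :
    ∃ u v : ℤ, u ^ 2 * v ^ 2 = r ^ 2 ∧ IsCoprime u v ∧
      (P = 27 * u ^ 4 ∧ Q = v ^ 4 ∨ Q = 27 * u ^ 4 ∧ P = v ^ 4) := by
  wlog h3 : (3 : ℤ) ∣ P generalizing P Q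
  · obtain ⟨u, v, h1, h2, h4⟩ := this hQ hP hc.symm (by linear_combination h)
      ((Int.prime_three.dvd_or_dvd (show (3 : ℤ) ∣ P * Q from ⟨9 * r ^ 4, by rw [h]; ring⟩)
        ).resolve_left h3)
    exact ⟨u, v, h1, h2, h4.symm⟩
  have hQ3 : IsCoprime (27 : ℤ) Q := by
    rw [show (27 : ℤ) = 3 ^ 3 by norm_num]
    exact (Int.prime_three.coprime_iff_not_dvd.2 fun hd =>
      Int.prime_three.not_isUnit (hc.isUnit_of_dvd' h3 hd)).pow_left
  obtain ⟨P', rfl⟩ := hQ3.dvd_of_dvd_mul_right ⟨r ^ 4, h⟩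
  have hP' : 0 < P' := by omega
  have e : P' * Q = (r ^ 2) ^ 2 := by linarith
  have hc' : IsCoprime P' Q := hc.of_mul_left_right
  obtain ⟨x, hx⟩ := FA.CongruentNumber.sq_of_coprime_pos hc' hP' e
  obtain ⟨y, hy⟩ := FA.CongruentNumber.sq_of_coprime_pos hc'.symm hQ (mul_comm P' Q ▸ e)
  subst hx hy
  have hxy : IsCoprime |x| |y| := ((IsCoprime.pow_iff two_pos two_pos).1 hc').abs_abs
  have e' : |x| * |y| = r ^ 2 := by
    rw [← abs_mul, ← pow_left_inj₀ (abs_nonneg _) (sq_nonneg r) two_ne_zero, sq_abs]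
    linear_combination e
  have hx0 : x ≠ 0 := by rintro rfl; simp at hP'
  have hy0 : y ≠ 0 := by rintro rfl; simp at hQ
  obtain ⟨u, hu⟩ := FA.CongruentNumber.sq_of_coprime_pos hxy (abs_pos.2 hx0) e'
  obtain ⟨v, hv⟩ := FA.CongruentNumber.sq_of_coprime_pos hxy.symm (abs_pos.2 hy0)
    (mul_comm |x| |y| ▸ e')
  refine ⟨u, v, by rw [← hu, ← hv]; exact e',
    (IsCoprime.pow_iff two_pos two_pos).1 (hu ▸ hv ▸ hxy), Or.inl ⟨?_, ?_⟩⟩
  · rw [← sq_abs x, hu]; ring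
  · rw [← sq_abs y, hv]; ring

/-- The mean and the semidifference of coprime numbers. -/
theorem coprime_halves {P Q : ℤ} (h : IsCoprime (Q - P) (P + Q)) : IsCoprime P Q := by
  obtain ⟨r, t, e⟩ := h
  exact ⟨t - r, r + t, by linear_combination e⟩

theorem coprime_two {a : ℤ} (ha : Odd a) : IsCoprime a 2 := by
  obtain ⟨j, rfl⟩ := ha
  exact ⟨1, -j, by ring⟩

/-- The quartic. -/
theorem no_quartic : ∀ (n : ℕ) (a b c : ℤ), b.natAbs = n → IsCoprime a b →
    a ^ 4 - 9 * a ^ 2 * b ^ 2 + 27 * b ^ 4 = c ^ 2 → b = 0 := by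
  intro n
  induction n using Nat.strong_induction_on with
  | _ n ih =>
    intro a b c hn hab h
    by_contra hb
    have h3a : ¬ (3 : ℤ) ∣ a := by
      rintro ⟨k, rfl⟩
      obtain ⟨c₁, rfl⟩ : (3 : ℤ) ∣ c := Int.prime_three.dvd_of_dvd_pow (n := 2)
        ⟨27 * k ^ 4 - 27 * k ^ 2 * b ^ 2 + 9 * b ^ 4, by rw [← h]; ring⟩
      obtain ⟨c₂, rfl⟩ : (3 : ℤ) ∣ c₁ := Int.prime_three.dvd_of_dvd_pow (n := 2)
        ⟨3 * k ^ 4 - 3 * k ^ 2 * b ^ 2 + b ^ 4, by linarith⟩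
      exact Int.prime_three.not_isUnit (hab.isUnit_of_dvd' (dvd_mul_right 3 k)
        (Int.prime_three.dvd_of_dvd_pow (n := 4) ⟨c₂ ^ 2 - k ^ 4 + k ^ 2 * b ^ 2, by linarith⟩))
    have ha3 : IsCoprime a 3 := (Int.prime_three.coprime_iff_not_dvd.2 h3a).symm
    have hmod : ∀ (m k : ℤ), (4 * a ^ 2 + k ^ 4 = 3 * m ∨ a ^ 2 + k ^ 4 = 3 * m) → False := by
      intro m k hk
      refine h3a ((ZMod.intCast_zmod_eq_zero_iff_dvd a 3).1 ?_)
      rcases hk with hk | hk <;> have := congrArg (Int.cast : ℤ → ZMod 3) hk <;>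
        push_cast at this <;> rw [show (3 : ZMod 3) = 0 from rfl, zero_mul] at this
      · exact three_dvd_sq_sum _ _ this
      · exact mod_three_core _ _ this
    obtain ⟨C, hC, hC2⟩ : ∃ C : ℤ, 0 < C ∧ C ^ 2 = c ^ 2 := by
      refine ⟨|c|, abs_pos.2 fun e => ?_, sq_abs c⟩
      rw [e] at h
      have : 0 < b ^ 4 := by positivity
      nlinarith [sq_nonneg (2 * a ^ 2 - 9 * b ^ 2)]
    rw [← hC2] at h
    rcases Int.even_or_odd b with hbe | hbo
    swap
    · obtain ⟨X, hX⟩ : ∃ X, X = 2 * a ^ 2 - 9 * b ^ 2 := ⟨_, rfl⟩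
      have hprod : (2 * C - X) * (2 * C + X) = 27 * b ^ 4 := by
        rw [hX]; linear_combination -4 * h
      have hpos : 0 < 2 * C - X ∧ 0 < 2 * C + X := by
        have : 0 < 27 * b ^ 4 := by positivity
        constructor <;> nlinarith
      have hXo : Odd X := hX ▸ (even_two_mul _).sub_odd ((by decide : Odd (9 : ℤ)).mul hbo.pow)
      have hXb : IsCoprime X b := by
        rw [hX, show 2 * a ^ 2 - 9 * b ^ 2 = 2 * a ^ 2 + b * (-9 * b) by ring]
        exact ((coprime_two hbo).symm.mul_left hab.pow_left).add_mul_left_left _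
      have hX3 : IsCoprime X 3 := by
        rw [hX, show 2 * a ^ 2 - 9 * b ^ 2 = 2 * a ^ 2 + 3 * (-3 * b ^ 2) by ring]
        exact ((show IsCoprime (2 : ℤ) 3 from ⟨-1, 1, by norm_num⟩).mul_left
          ha3.pow_left).add_mul_left_left _
      have hXC : IsCoprime X C := by
        have h4 : IsCoprime X (4 * C ^ 2) := by
          rw [show 4 * C ^ 2 = 3 ^ 3 * b ^ 4 + X * X by rw [hX]; linear_combination -4 * h]
          exact (hX3.pow_right.mul_right hXb.pow_right).add_mul_left_right _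
        exact (IsCoprime.pow_right_iff two_pos).1 h4.of_mul_right_right
      have hc : IsCoprime (2 * C - X) (2 * C + X) := by
        have h1 : IsCoprime (2 * C - X) X := by
          rw [show 2 * C - X = 2 * C + X * (-1) by ring]
          exact ((coprime_two hXo).mul_right hXC).symm.add_mul_left_left _
        have h2 : IsCoprime (2 * C - X) 2 :=
          coprime_two ((even_two_mul C).sub_odd hXo)
        rw [show 2 * C + X = 2 * X + (2 * C - X) * 1 by ring]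
        exact (h2.mul_right h1).add_mul_left_right _
      obtain ⟨u, v, huv, -, ⟨e1, e2⟩ | ⟨e1, e2⟩⟩ := split hpos.1 hpos.2 hc hprod
      · have hodd : Odd (u * v) :=
          (Int.odd_pow' two_ne_zero).1 (by rw [mul_pow, huv]; exact hbo.pow)
        obtain ⟨⟨i, hi⟩, ⟨j, hj⟩⟩ := Int.odd_mul.1 hodd
        have e : 4 * a ^ 2 = 18 * (u * v) ^ 2 + v ^ 4 - 27 * u ^ 4 := by
          rw [mul_pow, huv]; linarith
        have := congrArg (Int.cast : ℤ → ZMod 16) e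
        rw [hi, hj] at this
        push_cast at this
        exact mod_sixteen_core _ _ _ this
      · exact hmod (6 * b ^ 2 + 9 * u ^ 4) v (Or.inl (by linarith))
    obtain ⟨β, rfl⟩ := hbe.two_dvd
    have hβ : β ≠ 0 := right_ne_zero_of_mul hb
    have hao : Odd a := Int.not_even_iff_odd.1 fun he =>
      Int.prime_two.not_isUnit (hab.isUnit_of_dvd' he.two_dvd (dvd_mul_right 2 β))
    have haβ : IsCoprime a β := hab.of_mul_right_right
    obtain ⟨X, hX⟩ : ∃ X, X = a ^ 2 - 18 * β ^ 2 := ⟨_, rfl⟩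
    have hXo : Odd X := hX ▸ hao.pow.sub_even ⟨9 * β ^ 2, by ring⟩
    have hC' : C ^ 2 = X ^ 2 + 108 * β ^ 4 := by rw [hX]; linear_combination -h
    have hCo : Odd C := (Int.odd_pow' two_ne_zero).1
      (hC' ▸ hXo.pow.add_even ⟨54 * β ^ 4, by ring⟩)
    obtain ⟨P, hP⟩ := (hCo.sub_odd hXo).two_dvd
    obtain ⟨Q, hQ⟩ := (hCo.add_odd hXo).two_dvd
    have hPQ : P * Q = 27 * β ^ 4 := by
      have h4 : 4 * (P * Q) = 4 * (27 * β ^ 4) := by
        linear_combination hC' - (C + X) * hP - 2 * P * hQ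
      linarith
    have hXC : IsCoprime X C := by
      have hXb : IsCoprime X β := by
        rw [hX, show a ^ 2 - 18 * β ^ 2 = a ^ 2 + β * (-18 * β) by ring]
        exact haβ.pow_left.add_mul_left_left _
      have hX3 : IsCoprime X 3 := by
        rw [hX, show a ^ 2 - 18 * β ^ 2 = a ^ 2 + 3 * (-6 * β ^ 2) by ring]
        exact ha3.pow_left.add_mul_left_left _
      have h4 : IsCoprime X (C ^ 2) := by
        rw [hC', show X ^ 2 + 108 * β ^ 4 = 2 ^ 2 * 3 ^ 3 * β ^ 4 + X * X by ring]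
        exact (((coprime_two hXo).pow_right.mul_right hX3.pow_right).mul_right
          hXb.pow_right).add_mul_left_right _
      exact (IsCoprime.pow_right_iff two_pos).1 h4
    have hpos : 0 < P ∧ 0 < Q := by
      have : 0 < 27 * β ^ 4 := by positivity
      constructor <;> nlinarith
    have hc : IsCoprime P Q := coprime_halves (by
      rwa [show Q - P = X by linarith, show P + Q = C by linarith])
    obtain ⟨u, v, huv, huvc, ⟨e1, e2⟩ | ⟨e1, e2⟩⟩ := split hpos.1 hpos.2 hc hPQ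
    swap
    · exact hmod (6 * β ^ 2 + 9 * u ^ 4) v (Or.inr (by linarith))
    have ea : a ^ 2 = 18 * (u ^ 2 * v ^ 2) + v ^ 4 - 27 * u ^ 4 := by rw [huv]; linarith
    have hu0 : u ≠ 0 := fun e => by
      rw [e] at huv
      exact hβ ((pow_eq_zero_iff two_ne_zero).1 (by rw [← huv]; ring))
    obtain ⟨Y, hY⟩ : ∃ Y, Y = v ^ 2 + 9 * u ^ 2 := ⟨_, rfl⟩
    have hY2 : Y ^ 2 = a ^ 2 + 108 * u ^ 4 := by rw [hY]; linear_combination -ea
    have hYo : Odd Y := (Int.odd_pow' two_ne_zero).1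
      (hY2 ▸ hao.pow.add_even ⟨54 * u ^ 4, by ring⟩)
    obtain ⟨P', hP'⟩ := (hYo.sub_odd hao).two_dvd
    obtain ⟨Q', hQ'⟩ := (hYo.add_odd hao).two_dvd
    have hPQ' : P' * Q' = 27 * u ^ 4 := by
      have h4 : 4 * (P' * Q') = 4 * (27 * u ^ 4) := by
        linear_combination hY2 - (Y + a) * hP' - 2 * P' * hQ'
      linarith
    have haY : IsCoprime a Y := by
      have hau : IsCoprime a u :=
        (IsCoprime.of_isCoprime_of_dvd_right (haβ.pow_right (n := 2))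
          (show u ∣ β ^ 2 from ⟨u * v ^ 2, by rw [← huv]; ring⟩))
      have h4 : IsCoprime a (Y ^ 2) := by
        rw [hY2, show a ^ 2 + 108 * u ^ 4 = 2 ^ 2 * 3 ^ 3 * u ^ 4 + a * a by ring]
        exact (((coprime_two hao).pow_right.mul_right ha3.pow_right).mul_right
          hau.pow_right).add_mul_left_right _
      exact (IsCoprime.pow_right_iff two_pos).1 h4
    have hpos' : 0 < P' ∧ 0 < Q' := by
      have : 0 < 27 * u ^ 4 := by positivity
      have : 0 < Y := by rw [hY]; positivity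
      constructor <;> nlinarith
    obtain ⟨s, w, hsw, hswc, hsplit⟩ := split hpos'.1 hpos'.2 (coprime_halves (by
      rwa [show Q' - P' = a by linarith, show P' + Q' = Y by linarith])) hPQ'
    have hs0 : s ≠ 0 := fun e => by
      rw [e] at hsw
      exact hu0 ((pow_eq_zero_iff two_ne_zero).1 (by rw [← hsw]; ring))
    have hw0 : w ≠ 0 := fun e => by
      rw [e] at hsw
      exact hu0 ((pow_eq_zero_iff two_ne_zero).1 (by rw [← hsw]; ring))
    have hv0 : v ≠ 0 := fun e => by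
      rw [e] at huv
      exact hβ ((pow_eq_zero_iff two_ne_zero).1 (by rw [← huv]; ring))
    have hrec : w ^ 4 - 9 * w ^ 2 * s ^ 2 + 27 * s ^ 4 = v ^ 2 := by
      have e : v ^ 2 + 9 * (s ^ 2 * w ^ 2) = 27 * s ^ 4 + w ^ 4 := by
        rw [hsw]; rcases hsplit with ⟨e1, e2⟩ | ⟨e1, e2⟩ <;> linarith
      linarith
    refine hs0 (ih s.natAbs ?_ w s v rfl hswc.symm hrec)
    rw [← hn, Int.natAbs_lt_iff_sq_lt]
    have h1 : 1 ≤ w ^ 2 := by have := pow_two_pos_of_ne_zero hw0; omega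
    have h2 : 1 ≤ v ^ 2 := by have := pow_two_pos_of_ne_zero hv0; omega
    nlinarith [pow_two_pos_of_ne_zero hβ, pow_two_pos_of_ne_zero hs0, pow_two_pos_of_ne_zero hu0]

/-- **`y² = x³ + 27`** has only the rational point `(-3, 0)`. -/
theorem rational_points {U V : ℚ} (h : V ^ 2 = U ^ 3 + 27) : U = -3 ∧ V = 0 := by
  suffices hx : U + 3 = 0 by
    obtain rfl : U = -3 := by linarith
    exact ⟨rfl, (pow_eq_zero_iff two_ne_zero).1 (by rw [h]; norm_num)⟩
  by_contra hx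
  obtain ⟨x, rfl⟩ : ∃ x, U = x - 3 := ⟨U + 3, by ring⟩
  have hx0 : x ≠ 0 := fun e => hx (by rw [e]; ring)
  obtain ⟨m, hm⟩ : ∃ m, x.num = m := ⟨_, rfl⟩
  obtain ⟨d, hd⟩ : ∃ d : ℤ, (x.den : ℤ) = d := ⟨_, rfl⟩
  have hd0 : 0 < d := by rw [← hd]; exact_mod_cast x.den_pos
  have hmd : x * d = m := by rw [← hm, ← hd]; exact_mod_cast Rat.mul_den_eq_num x
  have hco : IsCoprime m d := by
    rw [← hm, ← hd, Int.isCoprime_iff_gcd_eq_one, Int.gcd, Int.natAbs_natCast]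
    exact x.reduced
  have hm0 : m ≠ 0 := hm ▸ Rat.num_ne_zero.2 hx0
  obtain ⟨f, hf⟩ : IsSquare (d * (m * (m ^ 2 - 9 * m * d + 27 * d ^ 2))) := by
    refine Rat.isSquare_intCast_iff.1 ⟨V * (d : ℚ) ^ 2, ?_⟩
    push_cast
    rw [← hmd]
    linear_combination -(d : ℚ) ^ 4 * h
  rw [← sq] at hf
  have hquad : 0 < m ^ 2 - 9 * m * d + 27 * d ^ 2 := by
    nlinarith [sq_nonneg (2 * m - 9 * d), pow_pos hd0 2]
  have hm_pos : 0 < m := by
    have h0 : 0 ≤ d * (m * (m ^ 2 - 9 * m * d + 27 * d ^ 2)) := hf ▸ sq_nonneg f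
    have := nonneg_of_mul_nonneg_right h0 hd0
    have := nonneg_of_mul_nonneg_left this hquad
    omega
  have hdm : IsCoprime d (m * (m ^ 2 - 9 * m * d + 27 * d ^ 2)) := by
    refine hco.symm.mul_right ?_
    rw [show m ^ 2 - 9 * m * d + 27 * d ^ 2 = m ^ 2 + d * (27 * d - 9 * m) by ring]
    exact hco.symm.pow_right.add_mul_left_right _
  obtain ⟨e, rfl⟩ := FA.CongruentNumber.sq_of_coprime_pos hdm hd0 hf
  obtain ⟨g, hg⟩ := FA.CongruentNumber.sq_of_coprime_pos hdm.symm (mul_pos hm_pos hquad)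
    (mul_comm (e ^ 2) _ ▸ hf)
  have he0 : e ≠ 0 := by rintro rfl; simp at hd0
  have hme : IsCoprime m e := (IsCoprime.pow_right_iff two_pos).1 hco
  by_cases h3 : (3 : ℤ) ∣ m
  · obtain ⟨m₁, rfl⟩ := h3
    have h27 : (27 : ℤ) * (m₁ * (m₁ ^ 2 - 3 * m₁ * e ^ 2 + 3 * (e ^ 2) ^ 2)) = g ^ 2 := by
      rw [← hg]; ring
    obtain ⟨g₁, rfl⟩ : (3 : ℤ) ∣ g := Int.prime_three.dvd_of_dvd_pow (n := 2) ⟨_, by
      rw [← h27, show (27 : ℤ) = 3 * 9 by norm_num, mul_assoc]⟩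
    obtain ⟨g₂, rfl⟩ : (3 : ℤ) ∣ g₁ := Int.prime_three.dvd_of_dvd_pow (n := 2)
      ⟨m₁ * (m₁ ^ 2 - 3 * m₁ * e ^ 2 + 3 * (e ^ 2) ^ 2), by linarith⟩
    obtain ⟨a, rfl⟩ : (3 : ℤ) ∣ m₁ := Int.prime_three.dvd_of_dvd_pow (n := 3)
      ⟨g₂ ^ 2 + m₁ ^ 2 * e ^ 2 - m₁ * (e ^ 2) ^ 2, by linarith⟩
    have h3e : IsCoprime (3 : ℤ) e := hme.of_mul_left_left
    have hae : IsCoprime a e := hme.of_mul_left_right.of_mul_left_right
    have e3 : 3 * a * ((e ^ 2) ^ 2 - 3 * a * e ^ 2 + 3 * a ^ 2) = g₂ ^ 2 := by linarith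
    have hc : IsCoprime (3 * a) ((e ^ 2) ^ 2 - 3 * a * e ^ 2 + 3 * a ^ 2) := by
      rw [show (e ^ 2) ^ 2 - 3 * a * e ^ 2 + 3 * a ^ 2 = (e ^ 2) ^ 2 + 3 * a * (a - e ^ 2) by ring]
      exact ((h3e.mul_left hae).pow_right.pow_right).add_mul_left_right _
    obtain ⟨t, ht⟩ := FA.CongruentNumber.sq_of_coprime_pos hc (by omega) e3
    obtain ⟨k, hk⟩ := FA.CongruentNumber.sq_of_coprime_pos hc.symm
      (by nlinarith [sq_nonneg (2 * a - e ^ 2), pow_two_pos_of_ne_zero (pow_ne_zero 2 he0)])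
      (mul_comm (3 * a) _ ▸ e3)
    obtain ⟨t₁, rfl⟩ : (3 : ℤ) ∣ t := Int.prime_three.dvd_of_dvd_pow (n := 2) ⟨a, ht.symm⟩
    obtain rfl : a = 3 * t₁ ^ 2 := by linarith
    have := no_quartic _ e t₁ k rfl
      ((IsCoprime.pow_left_iff two_pos).1 hae.of_mul_left_right).symm (by rw [← hk]; ring)
    exact hm0 (by rw [this]; ring)
  · have hc : IsCoprime m (m ^ 2 - 9 * m * e ^ 2 + 27 * (e ^ 2) ^ 2) := by
      rw [show m ^ 2 - 9 * m * e ^ 2 + 27 * (e ^ 2) ^ 2 =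
        3 ^ 3 * (e ^ 2) ^ 2 + m * (m - 9 * e ^ 2) by ring]
      exact ((Int.prime_three.coprime_iff_not_dvd.2 h3).symm.pow_right.mul_right
        hme.pow_right.pow_right).add_mul_left_right _
    obtain ⟨a, rfl⟩ := FA.CongruentNumber.sq_of_coprime_pos hc hm_pos hg
    obtain ⟨k, hk⟩ := FA.CongruentNumber.sq_of_coprime_pos hc.symm hquad
      (mul_comm (a ^ 2) _ ▸ hg)
    exact he0 (no_quartic _ a e k rfl ((IsCoprime.pow_left_iff two_pos).1 hme)
      (by rw [← hk]; ring))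

end FA.Curve144

end
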