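import Fermat.Agent.MordellCurve.Torsion
import Fermat.Agent.Torsion.Short

/-!
# The torsion of the curves `y² = x³ + D x`

Modulo a prime `p ≡ 3 (mod 4)` there are `p + 1` points, so Dirichlet's theorem shows that the
order of the torsion subgroup divides `4`. A point of order four would double to `(0, 0)`, forcing
`D = 4` up to fourth powers; three points of order two need `-D` to be a square.
-/

set_option autoImplicit false
set_option linter.style.haveILetI false
set_option linter.unusedSimpArgs false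

noncomputable section

open WeierstrassCurve
open FA.Frob (ratCurve)
open FA.Torsion (countMod natCard_torsion_dvd torsion_equiv_of cyclicHom cyclicHom_injective twoHom
  twoHom_injective shortCurve shortCurve_equation y_eq_zero_of_double exists_double
  sq_eq_derivative_of_double)

namespace FA.MordellCurve

/-- The curve `y² = x³ + D x` over `ℤ`. -/
def quartModel (D : ℤ) : WeierstrassCurve ℤ := ⟨0, 0, 0, D, 0⟩

/-- The curve `y² = x³ + D x` over `ℚ`. -/
abbrev quartCurve (D : ℤ) : WeierstrassCurve ℚ := shortCurve 0 (D : ℚ) 0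

theorem quartModel_Δ (D : ℤ) : (quartModel D).Δ = -64 * D ^ 3 := by
  simp [quartModel, WeierstrassCurve.Δ, WeierstrassCurve.b₂, WeierstrassCurve.b₄,
    WeierstrassCurve.b₆, WeierstrassCurve.b₈]
  ring

theorem ratCurve_quartModel (D : ℤ) : ratCurve (quartModel D) = quartCurve D := by
  ext <;> simp [quartModel, quartCurve, shortCurve]

theorem isElliptic_quartCurve {D : ℤ} (hD : D ≠ 0) : (quartCurve D).IsElliptic :=
  ratCurve_quartModel D ▸ FA.Frob.ratCurve_isElliptic_of_Δ (by
    rw [quartModel_Δ]; exact mul_ne_zero (by norm_num) (pow_ne_zero _ hD))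

theorem nonsingular_quartCurve {D : ℤ} (hD : D ≠ 0) {x y : ℚ}
    (h : y ^ 2 = x ^ 3 + (D : ℚ) * x) : (quartCurve D).toAffine.Nonsingular x y :=
  haveI := isElliptic_quartCurve hD
  Affine.equation_iff_nonsingular.mp ((Affine.equation_iff x y).mpr (by
    simp [quartCurve, shortCurve]; linear_combination h))

/-- Modulo a prime `p ≡ 3 (mod 4)` there are `p + 1` points. -/
theorem countMod_quartModel (D : ℤ) {p : ℕ} [Fact p.Prime] (hp : p % 4 = 3) :
    countMod (quartModel D) p = p + 1 := by
  classical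
  have hchar : ringChar (ZMod p) ≠ 2 := by rw [ZMod.ringChar_zmod_n]; omega
  set f : ZMod p → ZMod p := fun x => x ^ 3 + (D : ZMod p) * x with hf
  have hodd : ∀ x, quadraticChar (ZMod p) (f (-x)) = -quadraticChar (ZMod p) (f x) := fun x => by
    rw [show f (-x) = -1 * f x by simp only [hf]; ring, map_mul, quadraticChar_neg_one hchar,
      ZMod.card, ZMod.χ₄_nat_three_mod_four hp, neg_one_mul]
  have hsum : ∑ x, quadraticChar (ZMod p) (f x) = 0 := by
    have := Equiv.sum_comp (Equiv.neg (ZMod p)) fun x => quadraticChar (ZMod p) (f x)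
    simp only [Equiv.neg_apply, hodd, Finset.sum_neg_distrib] at this
    omega
  have key : ((Finset.univ.filter fun q : ZMod p × ZMod p => q.2 ^ 2 = f q.1).card : ℤ) = p := by
    rw [Finset.card_filter, Fintype.sum_prod_type, Nat.cast_sum]
    have hx : ∀ x : ZMod p, ((∑ y : ZMod p, if y ^ 2 = f x then 1 else 0 : ℕ) : ℤ) =
        quadraticChar (ZMod p) (f x) + 1 := fun x => by
      rw [← Finset.card_filter, ← quadraticChar_card_sqrts hchar, Set.toFinset_ofPred]
    simp only [hx, Finset.sum_add_distrib, hsum, zero_add, Finset.sum_const, Finset.card_univ,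
      ZMod.card]
    simp
  rw [countMod, Nat.add_right_cancel_iff, ← @Nat.cast_inj ℤ]
  refine Eq.trans ?_ key
  congr 2
  ext q
  simp [quartModel, hf]

/-- The order of the torsion subgroup divides `4`. -/
theorem natCard_torsion_quartCurve_dvd {D : ℤ} (hD : D ≠ 0) :
    Finite (AddCommGroup.torsion (quartCurve D).toAffine.Point) ∧
      Nat.card (AddCommGroup.torsion (quartCurve D).toAffine.Point) ∣ 4 := by
  rw [← ratCurve_quartModel]
  haveI := FA.Frob.ratCurve_isElliptic_of_Δ (W := quartModel D) (by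
    rw [quartModel_Δ]; exact mul_ne_zero (by norm_num) (pow_ne_zero _ hD))
  have hgood : ∀ p : ℕ, p.Prime → 64 < p → D.natAbs < p → ¬ (p : ℤ) ∣ (quartModel D).Δ := by
    intro p hp h7 hDp hd
    rw [quartModel_Δ] at hd
    have hd' : p ∣ 64 * D.natAbs ^ 3 := by
      simpa [Int.natAbs_mul, Int.natAbs_pow] using Int.natCast_dvd.mp hd
    rcases hp.dvd_mul.mp hd' with h | h
    · have := Nat.le_of_dvd (by norm_num) h; omega
    · have := Nat.le_of_dvd (Int.natAbs_pos.mpr hD) (hp.dvd_of_dvd_pow h); omega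
  obtain ⟨p₀, hp₀, hp₀'⟩ := Nat.exists_infinite_primes (D.natAbs + 65)
  haveI := Fact.mk hp₀'
  obtain ⟨hfin, -⟩ := natCard_torsion_dvd p₀ (quartModel D) (by omega)
    (hgood p₀ hp₀' (by omega) (by omega))
  refine ⟨hfin, ?_⟩
  set d := Nat.card (AddCommGroup.torsion (ratCurve (quartModel D)).toAffine.Point)
  have hd0 : d ≠ 0 := Nat.card_pos.ne'
  obtain ⟨k, m, hm, hkm⟩ := Nat.exists_eq_pow_mul_and_not_dvd hd0 2 (by norm_num)
  have hm2 : Nat.Coprime 2 m := Nat.prime_two.coprime_iff_not_dvd.mpr hm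
  have hco : Nat.Coprime 8 m := by simpa using hm2.pow_left 3
  obtain ⟨r, hr8, hrm⟩ := Nat.chineseRemainder hco 3 1
  have hcop : r.Coprime (8 * m) := by
    refine Nat.Coprime.mul_right ?_ ?_
    · rw [Nat.Coprime, hr8.gcd_eq]; decide
    · rw [Nat.Coprime, hrm.gcd_eq, Nat.gcd_one_left]
  obtain ⟨p, hpgt, hp, hpr⟩ := Nat.forall_exists_prime_gt_and_modEq (D.natAbs + 65)
    (q := 8 * m) (by rintro h; simp at h; simp [h] at hm) hcop
  have hp8 : p % 8 = 3 := (hpr.of_mul_right m).trans hr8
  have hpm : p ≡ 1 [MOD m] := (hpr.of_mul_left 8).trans hrm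
  haveI := Fact.mk hp
  have hdvd :=
    (natCard_torsion_dvd p (quartModel D) (by omega) (hgood p hp (by omega) (by omega))).2
  rw [countMod_quartModel D (by omega)] at hdvd
  change d ∣ p + 1 at hdvd
  rw [hkm] at hdvd ⊢
  have hm1 : m = 1 := Nat.Coprime.eq_one_of_dvd hm2.symm (Nat.modEq_zero_iff_dvd.mp
    ((hpm.add_right 1).symm.trans (Nat.modEq_zero_iff_dvd.mpr ((dvd_mul_left m _).trans hdvd))))
  subst hm1
  rw [mul_one] at hdvd ⊢
  have hk : k ≤ 2 := by
    by_contra hk
    have h8 : 8 ∣ p + 1 := (pow_dvd_pow 2 (by omega : 3 ≤ k)).trans hdvd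
    omega
  exact pow_dvd_pow 2 hk

variable {D : ℤ}

/-- The point `(0, 0)`. -/
def originPoint (hD : D ≠ 0) : (quartCurve D).toAffine.Point :=
  .some 0 0 (nonsingular_quartCurve hD (by ring))

theorem two_smul_of_y_eq_zero {x : ℚ} (h : (quartCurve D).toAffine.Nonsingular x 0) :
    2 • Affine.Point.some x 0 h = 0 := by
  rw [two_nsmul]
  exact Affine.Point.add_self_of_Y_eq (by simp [quartCurve, shortCurve, Affine.negY])

/-- Up to fourth powers, only `D = 4` has a point of order four. -/
theorem eq_four (hfree : ∀ m : ℤ, m ^ 4 ∣ D → IsUnit m) (hD : D ≠ 0) {x y : ℚ}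
    (hy : y ^ 2 = 2 * x ^ 3) (hx : x ^ 2 = (D : ℚ)) : D = 4 := by
  have hx0 : x ≠ 0 := fun e => hD (by rw [e] at hx; simpa using hx.symm)
  set t := y / (2 * x) with ht
  have ht2 : x = 2 * t ^ 2 := by rw [ht, div_pow, hy]; field_simp
  have e : D * (t.den : ℤ) ^ 4 = 4 * t.num ^ 4 := by
    have h' : (D : ℚ) * ((t.den : ℤ) : ℚ) ^ 4 = 4 * (t.num : ℚ) ^ 4 := by
      rw [← Rat.mul_den_eq_num t, ← hx, ht2, Int.cast_natCast]; ring
    exact_mod_cast h'
  have hco : IsCoprime t.num (t.den : ℤ) := by
    rw [Int.isCoprime_iff_gcd_eq_one, Int.gcd, Int.natAbs_natCast]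
    exact t.reduced
  have hnum : IsUnit t.num := hfree _ ((hco.pow (m := 4) (n := 4)).dvd_of_dvd_mul_right
    ⟨4, by linear_combination e⟩)
  have hn1 : t.num ^ 4 = 1 := by rcases Int.isUnit_iff.mp hnum with h | h <;> norm_num [h]
  rw [hn1, mul_one] at e
  have hd : t.den ^ 4 ∣ 4 := Int.natCast_dvd_natCast.mp ⟨D, by push_cast; linear_combination -e⟩
  have hlt : t.den < 2 := by
    by_contra h
    have := (Nat.pow_le_pow_left (show 2 ≤ t.den by omega) 4).trans (Nat.le_of_dvd (by norm_num) hd)
    omega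
  rw [show t.den = 1 by have := t.den_pos; omega] at e
  simpa using e

/-- A torsion point killed by two other than the trivial ones makes `-D` a square; one not killed
by two makes `D = 4`. -/
theorem torsion_cases (hfree : ∀ m : ℤ, m ^ 4 ∣ D → IsUnit m) (hD : D ≠ 0)
    {P : (quartCurve D).toAffine.Point} (hP : 4 • P = 0) (h0 : P ≠ 0) (hT : P ≠ originPoint hD) :
    IsSquare (-D) ∨ D = 4 := by
  have root : ∀ x : ℚ, (quartCurve D).toAffine.Nonsingular x 0 → x ≠ 0 → IsSquare (-D) := by
    intro x h hx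
    have he := shortCurve_equation h
    have h2 : x ^ 2 = ((-D : ℤ) : ℚ) := mul_left_cancel₀ hx (by push_cast; linear_combination -he)
    obtain ⟨c, rfl⟩ := exists_int_of_pow two_ne_zero h2
    exact ⟨c, by rw [← sq]; exact_mod_cast h2.symm⟩
  rcases P with _ | ⟨x, y, h⟩
  · exact absurd rfl h0
  by_cases hy : y = 0
  · subst hy
    refine Or.inl (root x h fun hx => hT ?_)
    subst hx
    rfl
  obtain ⟨x₂, y₂, h', e2⟩ : ∃ x₂ y₂ h', 2 • Affine.Point.some x y h =
      Affine.Point.some (W' := (quartCurve D).toAffine) x₂ y₂ h' :=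
    ⟨_, _, exists_double (h := h) hy⟩
  have h4 : 2 • (2 • Affine.Point.some x y h) = 0 := by rw [← mul_nsmul]; exact hP
  rw [e2] at h4
  obtain rfl := y_eq_zero_of_double h4
  have hsq := sq_eq_derivative_of_double e2
  by_cases hx2 : x₂ = 0
  · rw [hx2] at hsq
    refine Or.inr (eq_four hfree hD (x := x) (y := y) ?_ (by linear_combination hsq))
    linear_combination (shortCurve_equation h) - x * hsq
  · exact Or.inl (root x₂ h' hx2)

/-- The three cases of the torsion subgroup. -/
theorem torsion_quartCurve (D : ℤ) (hfree : ∀ m : ℤ, m ^ 4 ∣ D → IsUnit m) :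
    (D = 4 → Nonempty (AddCommGroup.torsion (quartCurve D).toAffine.Point ≃+ ZMod 4)) ∧
      (IsSquare (-D) →
        Nonempty (AddCommGroup.torsion (quartCurve D).toAffine.Point ≃+ ZMod 2 × ZMod 2)) ∧
        (D ≠ 4 → ¬ IsSquare (-D) →
          Nonempty (AddCommGroup.torsion (quartCurve D).toAffine.Point ≃+ ZMod 2)) := by
  have hD : D ≠ 0 := fun h => by
    have := Int.isUnit_iff.mp (hfree 2 (h ▸ dvd_zero _))
    omega
  haveI := isElliptic_quartCurve hD
  obtain ⟨hfin, hd⟩ := natCard_torsion_quartCurve_dvd hD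
  set O := originPoint hD with hO
  have hO0 : O ≠ 0 := Affine.Point.some_ne_zero _
  have hO2 : 2 • O = 0 := two_smul_of_y_eq_zero _
  refine ⟨fun h4 => ?_, fun ⟨c, hc⟩ => ?_, fun h4 hs => ?_⟩
  · subst h4
    let P : (quartCurve 4).toAffine.Point := .some 2 4 (nonsingular_quartCurve hD (by norm_num))
    obtain ⟨h', e2⟩ := exists_double (h := nonsingular_quartCurve hD (x := 2) (y := 4)
      (D := 4) (by norm_num)) (by norm_num)
    have hP2 : 2 • P = O := by
      rw [e2, hO, originPoint, Affine.Point.some.injEq]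
      norm_num
    have hord : addOrderOf P = 2 ^ (1 + 1) := addOrderOf_eq_prime_pow
      (by rw [pow_one, hP2]; exact hO0)
      (by rw [show 2 ^ (1 + 1) = 2 * 2 from rfl, mul_nsmul, hP2, hO2])
    have hP4 : 4 • P = 0 := addOrderOf_dvd_iff_nsmul_eq_zero.mp hord.dvd
    exact torsion_equiv_of (cyclicHom P hP4) (cyclicHom_injective hP4 fun i hi =>
      Nat.eq_zero_of_dvd_of_lt (hord.symm.dvd.trans (addOrderOf_dvd_of_nsmul_eq_zero hi)) i.2)
      (by rwa [Nat.card_zmod])
  · have hc0 : (c : ℚ) ≠ 0 := Int.cast_ne_zero.mpr (left_ne_zero_of_mul (hc ▸ neg_ne_zero.mpr hD))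
    have hcQ : (c : ℚ) ^ 2 = -(D : ℚ) := by
      rw [sq]; exact_mod_cast hc.symm
    let P : (quartCurve D).toAffine.Point :=
      .some (c : ℚ) 0 (nonsingular_quartCurve hD (by linear_combination -(c : ℚ) * hcQ))
    refine torsion_equiv_of (twoHom O P hO2 (two_smul_of_y_eq_zero _))
      (twoHom_injective _ _ ?_) (by rw [Nat.card_prod, Nat.card_zmod]; exact hd)
    intro j k h
    fin_cases j <;> fin_cases k <;>
      simp only [Fin.val_zero, Fin.val_one, zero_smul, one_smul, zero_add, add_zero] at h ⊢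
    · exact ⟨trivial, trivial⟩
    · exact absurd h (Affine.Point.some_ne_zero _)
    · exact absurd h hO0
    · rw [hO, originPoint, Affine.Point.add_some fun hh => hc0 hh.1.symm] at h
      exact absurd h (Affine.Point.some_ne_zero _)
  · have hmem : ∀ P : AddCommGroup.torsion (quartCurve D).toAffine.Point, (P : (quartCurve D).toAffine.Point) = 0 ∨
        (P : (quartCurve D).toAffine.Point) = O := by
      intro P
      by_contra hP
      push Not at hP
      have h4P : 4 • (P : (quartCurve D).toAffine.Point) = 0 := by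
        rw [← AddSubgroup.coe_nsmul, addOrderOf_dvd_iff_nsmul_eq_zero.mp
          ((addOrderOf_dvd_natCard P).trans hd), AddSubgroup.coe_zero]
      exact (torsion_cases hfree hD h4P hP.1 hP.2).elim hs h4
    have hord : addOrderOf O = 2 := addOrderOf_eq_prime hO2 hO0
    have hinj := cyclicHom_injective hO2 fun i hi =>
      Nat.eq_zero_of_dvd_of_lt (hord.symm.dvd.trans (addOrderOf_dvd_of_nsmul_eq_zero hi)) i.2
    refine torsion_equiv_of (cyclicHom O hO2) hinj ?_
    rw [Nat.card_zmod]
    have hle : Nat.card (AddCommGroup.torsion (quartCurve D).toAffine.Point) ≤ 2 := by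
      classical
      refine (Nat.card_le_card_of_injective
        (fun P : AddCommGroup.torsion (quartCurve D).toAffine.Point => decide ((P : (quartCurve D).toAffine.Point) = 0)) ?_).trans (by simp)
      intro P Q h
      simp only [decide_eq_decide] at h
      rcases hmem P with hP | hP <;> rcases hmem Q with hQ | hQ
      · exact Subtype.ext (hP.trans hQ.symm)
      · exact absurd (hQ ▸ h.mp hP) hO0
      · exact absurd (hP ▸ h.mpr hQ) hO0
      · exact Subtype.ext (hP.trans hQ.symm)
    show Nat.card (AddCommGroup.torsion (quartCurve D).toAffine.Point) ∣ 2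
    have hpos : 0 < Nat.card (AddCommGroup.torsion (quartCurve D).toAffine.Point) := Nat.card_pos
    rcases (show Nat.card (AddCommGroup.torsion (quartCurve D).toAffine.Point) = 1 ∨ Nat.card (AddCommGroup.torsion (quartCurve D).toAffine.Point) = 2 by omega) with h | h <;> rw [h]
    norm_num

end FA.MordellCurve

namespace FA.Summary

open FA.MordellCurve

/-- **The torsion of `y² = x³ + D x`** for an integer `D` free of fourth powers: `ℤ/4` for `D = 4`,
`ℤ/2 × ℤ/2` when `-D` is a square, `ℤ/2` otherwise. -/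
theorem quarticTwist_torsion (D : ℤ) (hfree : ∀ m : ℤ, m ^ 4 ∣ D → IsUnit m) :
    let T := AddCommGroup.torsion (⟨0, 0, 0, (D : ℚ), 0⟩ : WeierstrassCurve ℚ).toAffine.Point
    (D = 4 → Nonempty (T ≃+ ZMod 4)) ∧
      (IsSquare (-D) → Nonempty (T ≃+ ZMod 2 × ZMod 2)) ∧
        (D ≠ 4 → ¬ IsSquare (-D) → Nonempty (T ≃+ ZMod 2)) :=
  torsion_quartCurve D hfree

end FA.Summary

end
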