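import Fermat.Agent.MordellCurve.Sylvester

/-!
# `3` is not a sum of two rational cubes

In a primitive solution of `x³ + y³ = 3 z³` the sum `x + y` is `27` times a cube and the cofactor
three times the norm of a cube in `ℤ[ω]`; its components give a smaller solution.
-/

set_option autoImplicit false

noncomputable section

namespace FA.ThreeCubes

open FA.Torsion.X35 (exists_cube)

/-- The descent. -/
theorem no_solution : ∀ (N : ℕ) (x y z : ℤ), z.natAbs = N → IsCoprime x y →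
    x ^ 3 + y ^ 3 = 3 * z ^ 3 → z = 0 := by
  have : Fact (Nat.Prime 3) := ⟨Nat.prime_three⟩
  intro N
  induction N using Nat.strong_induction_on with
  | _ N ih =>
    intro x y z hN hxy h
    by_contra hz
    obtain ⟨t, ht⟩ : (3 : ℤ) ∣ x + y := Int.prime_three.dvd_of_dvd_pow (n := 3)
      ⟨z ^ 3 + x * y * (x + y), by linear_combination h⟩
    obtain rfl : x = 3 * t - y := by linear_combination ht
    obtain ⟨Q, hQ⟩ : ∃ Q, Q = (y - t) ^ 2 - (y - t) * t + t ^ 2 := ⟨_, rfl⟩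
    have h3t : 3 * (t * Q) = z ^ 3 :=
      mul_left_cancel₀ (by norm_num : (3 : ℤ) ≠ 0) (by rw [hQ]; linear_combination h)
    obtain ⟨z', rfl⟩ : (3 : ℤ) ∣ z := Int.prime_three.dvd_of_dvd_pow (n := 3) ⟨t * Q, h3t.symm⟩
    have h9 : t * Q = 9 * z' ^ 3 := by linarith
    have hyt : IsCoprime (y - t) t := by
      obtain ⟨a, b, e⟩ := hxy
      exact ⟨b - a, 3 * a + (b - a), by linear_combination e⟩
    have hy3 : ¬(3 : ℤ) ∣ y := fun e => Int.prime_three.not_isUnit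
      (hxy.isUnit_of_dvd' (dvd_sub (dvd_mul_right _ _) e) e)
    have hQ3 : IsCoprime 3 Q := by
      rw [hQ, show (y - t) ^ 2 - (y - t) * t + t ^ 2 = y ^ 2 + 3 * (t ^ 2 - y * t) by ring]
      exact ((Int.prime_three.coprime_iff_not_dvd.mpr hy3).pow_right).add_mul_left_right _
    have hQt : IsCoprime t Q := by
      rw [hQ, show (y - t) ^ 2 - (y - t) * t + t ^ 2 = (y - t) ^ 2 + t * (2 * t - y) by ring]
      exact hyt.symm.pow_right.add_mul_left_right _
    obtain ⟨s, rfl⟩ : (9 : ℤ) ∣ t := by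
      rw [show (9 : ℤ) = 3 ^ 2 by norm_num] at h9 ⊢
      exact hQ3.pow_left.dvd_of_dvd_mul_right ⟨_, h9⟩
    obtain ⟨⟨r, hr⟩, M, hM⟩ := Int.eq_pow_of_mul_eq_pow_odd hQt.of_mul_left_right (k := 3)
      (by decide) (c := z') (by linarith)
    subst hr
    obtain ⟨m, n, a, b, ha, hb, hMn, H⟩ := exists_cube hyt
      (by rwa [sub_add_cancel]) (M := M) (by rw [← hM, hQ])
    have key : m * n * (m - n) = 3 * r ^ 3 := by
      rcases H with ⟨-, hq⟩ | ⟨hp', hq⟩ | ⟨hp', hq⟩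
      · rw [hb] at hq; linarith
      · exact absurd ⟨3 * r ^ 3 - b / 3, by
          have : b / 3 = m * n * (m - n) := by rw [hb, Int.mul_ediv_cancel_left _ three_ne_zero]
          rw [this]; linarith⟩ hy3
      · exact absurd ⟨b / 3 + 6 * r ^ 3, by
          have : b / 3 = m * n * (m - n) := by rw [hb, Int.mul_ediv_cancel_left _ three_ne_zero]
          rw [this]; linarith⟩ hy3
    have hz3 : z' = r * M := (Odd.pow_inj (by decide : Odd 3)).1 (by rw [hM] at h9; linarith)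
    have hz' : r * M ≠ 0 := hz3 ▸ right_ne_zero_of_mul hz
    have hmn : IsCoprime m n := by
      refine isCoprime_of_prime_dvd ?_ fun q hq hm hn => hq.not_isUnit ?_
      · rintro ⟨rfl, rfl⟩
        exact hz' (by rw [hMn]; ring)
      have h1 : q ∣ 3 * r ^ 3 := key ▸ dvd_mul_of_dvd_left (dvd_mul_of_dvd_left hm _) _
      refine hQt.isUnit_of_dvd' (h1.trans ⟨3, by ring⟩) (hM ▸ dvd_pow ?_ three_ne_zero)
      rw [hMn]
      exact dvd_add (dvd_sub (dvd_pow hm two_ne_zero) (dvd_mul_of_dvd_left hm _))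
        (dvd_pow hn two_ne_zero)
    obtain ⟨X, Y, Z, hXY, hZ, hZ0, hle, -⟩ := FA.Sylvester.of_three (p := 3) (k := 1) one_ne_zero
      (u := m) (v := -n) (w := n - m) (by ring) hmn.neg_right (c := r)
      (by push_cast; linarith) (left_ne_zero_of_mul hz')
    refine hZ0 (ih Z.natAbs (hN ▸ hle.trans_lt ?_) X Y Z rfl hXY (by simpa using hZ))
    rw [hz3, Int.natAbs_mul, Int.natAbs_mul, show Int.natAbs 3 = 3 from rfl]
    have h1 := Int.natAbs_pos.2 (left_ne_zero_of_mul hz')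
    have h2 := Int.natAbs_pos.2 (right_ne_zero_of_mul hz')
    nlinarith [Nat.le_mul_of_pos_right r.natAbs h2]

/-- **`3` is not a sum of two rational cubes.** -/
theorem three_not_sum (a b : ℚ) : a ^ 3 + b ^ 3 ≠ 3 := fun h => by
  obtain ⟨x, hx⟩ : ∃ x : ℤ, x = a.num * b.den := ⟨_, rfl⟩
  obtain ⟨y, hy⟩ : ∃ y : ℤ, y = b.num * a.den := ⟨_, rfl⟩
  obtain ⟨D, hD⟩ : ∃ D : ℤ, D = (a.den : ℤ) * b.den := ⟨_, rfl⟩
  have hD0 : D ≠ 0 := by
    rw [hD]
    exact mul_ne_zero (by exact_mod_cast a.den_ne_zero) (by exact_mod_cast b.den_ne_zero)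
  have e : x ^ 3 + y ^ 3 = 3 * D ^ 3 := by
    refine (Int.cast_injective (α := ℚ)) ?_
    rw [hx, hy, hD]
    push_cast
    rw [← Rat.mul_den_eq_num a, ← Rat.mul_den_eq_num b]
    linear_combination ((a.den : ℚ) * b.den) ^ 3 * h
  have hne : x ≠ 0 ∨ y ≠ 0 := by
    by_contra hc
    push Not at hc
    rw [hc.1, hc.2] at e
    exact hD0 ((pow_eq_zero_iff three_ne_zero).1 (by linarith))
  obtain ⟨x', y', hg, ex, ey⟩ := Int.exists_gcd_one (m := x) (n := y) (Int.gcd_pos_iff.2 hne)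
  have hg0 : (Int.gcd x y : ℤ) ≠ 0 := by exact_mod_cast (Int.gcd_pos_iff.2 hne).ne'
  generalize (Int.gcd x y : ℤ) = g at ex ey hg0
  subst ex ey
  obtain ⟨t, ht⟩ := (Int.pow_dvd_pow_iff (n := 3) three_ne_zero).1
    (show g ^ 3 ∣ (3 * D) ^ 3 from ⟨9 * (x' ^ 3 + y' ^ 3), by linear_combination -9 * e⟩)
  have ht3 : t ^ 3 = 9 * (x' ^ 3 + y' ^ 3) := mul_left_cancel₀ (pow_ne_zero 3 hg0) (by
    linear_combination -9 * e - ((3 * D) ^ 2 + 3 * D * (g * t) + (g * t) ^ 2) * ht)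
  obtain ⟨w, rfl⟩ : (3 : ℤ) ∣ t := Int.prime_three.dvd_of_dvd_pow (n := 3)
    ⟨3 * (x' ^ 3 + y' ^ 3), by rw [ht3]; ring⟩
  obtain rfl : D = g * w := by linarith
  exact hD0 (by rw [no_solution _ x' y' w rfl (Int.isCoprime_iff_gcd_eq_one.2 hg) (by linarith),
    mul_zero])

end FA.ThreeCubes

end
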