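import Fermat.Agent.MordellCurve.QuadraticCubic
import Fermat.Agent.MordellCurve.ThreeCubes

/-!
# Exponent `9` in quadratic fields

A solution gives `X³ + Y³ = 1` with `X + Y = S` rational and `Y` a cube, so `X Y = -q³` with `q`
rational and `S³ + 3 q³ S = 1`; clearing denominators leaves `3` or `1` as a sum of two cubes.
-/

set_option autoImplicit false

noncomputable section

namespace FA.NinthQuadratic

open FA.Aigner

/-- `S³ + 3 q³ S = 1` forces `q = 0`. -/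
theorem eq_zero_of_curve {S q : ℚ} (h : S ^ 3 + 3 * q ^ 3 * S = 1) : q = 0 := by
  by_contra hq
  obtain ⟨a, ha⟩ : ∃ a, S.num = a := ⟨_, rfl⟩
  obtain ⟨b, hb⟩ : ∃ b : ℤ, (S.den : ℤ) = b := ⟨_, rfl⟩
  obtain ⟨u, hu⟩ : ∃ u, q.num = u := ⟨_, rfl⟩
  obtain ⟨e, he⟩ : ∃ e : ℤ, (q.den : ℤ) = e := ⟨_, rfl⟩
  have hab : IsCoprime a b := ha ▸ hb ▸ Rat.isCoprime_num_den S
  have hue : IsCoprime u e := hu ▸ he ▸ Rat.isCoprime_num_den q
  have hb0 : b ≠ 0 := by rw [← hb]; exact_mod_cast S.den_ne_zero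
  have he0 : e ≠ 0 := by rw [← he]; exact_mod_cast q.den_ne_zero
  have hu0 : u ≠ 0 := hu ▸ Rat.num_ne_zero.2 hq
  have key : (b ^ 3 - a ^ 3) * e ^ 3 = 3 * (a * b ^ 2) * u ^ 3 := by
    refine (Int.cast_injective (α := ℚ)) ?_
    rw [← ha, ← hb, ← hu, ← he]
    push_cast
    rw [← Rat.mul_den_eq_num S, ← Rat.mul_den_eq_num q]
    linear_combination -(S.den : ℚ) ^ 3 * (q.den : ℚ) ^ 3 * h
  have ha0 : a ≠ 0 := by
    rintro rfl
    rw [show (0 : ℤ) ^ 3 = 0 by norm_num, sub_zero] at key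
    simp [hb0, he0] at key
  have hc : IsCoprime (a * b ^ 2) (b ^ 3 - a ^ 3) := by
    refine IsCoprime.mul_left ?_ ?_
    · rw [show b ^ 3 - a ^ 3 = b ^ 3 + a * (-a ^ 2) by ring]
      exact hab.pow_right.add_mul_left_right _
    · rw [show b ^ 3 - a ^ 3 = -(a ^ 3) + b ^ 2 * b by ring]
      exact (hab.symm.pow.neg_right).add_mul_left_right _
  obtain ⟨f, hf⟩ : a * b ^ 2 ∣ e ^ 3 :=
    hc.dvd_of_dvd_mul_left ⟨3 * u ^ 3, by rw [key]; ring⟩
  obtain ⟨g, hg⟩ : e ^ 3 ∣ 3 * (a * b ^ 2) :=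
    hue.symm.pow.dvd_of_dvd_mul_right ⟨b ^ 3 - a ^ 3, by rw [← key]; ring⟩
  have hab0 : a * b ^ 2 ≠ 0 := mul_ne_zero ha0 (pow_ne_zero 2 hb0)
  have hfg : f * g = 3 := mul_left_cancel₀ hab0 (by rw [hf] at hg; linarith)
  have hcube : (b ^ 3 - a ^ 3) * f = 3 * u ^ 3 := mul_left_cancel₀ hab0 (by
    rw [hf] at key; linarith)
  have hba : IsCoprime b (-a) := hab.symm.neg_right
  have hcases : f = 1 ∨ f = -1 ∨ f = 3 ∨ f = -3 := by
    have hd : f.natAbs ∣ 3 := Int.natAbs_dvd_natAbs.2 (show f ∣ (3 : ℤ) from ⟨g, hfg.symm⟩)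
    rcases (Nat.dvd_prime Nat.prime_three).1 hd with h | h <;> omega
  have flt : ∀ v : ℤ, v ≠ 0 → b ^ 3 + (-a) ^ 3 ≠ v ^ 3 := fun v hv =>
    fermatLastTheoremFor_iff_int.1 fermatLastTheoremThree b (-a) v hb0 (neg_ne_zero.2 ha0) hv
  rcases hcases with rfl | rfl | rfl | rfl
  · exact hu0 (FA.ThreeCubes.no_solution _ b (-a) u rfl hba (by linarith))
  · exact neg_ne_zero.2 hu0
      (FA.ThreeCubes.no_solution _ b (-a) (-u) rfl hba (by linarith))
  · exact flt u hu0 (by linarith)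
  · exact flt (-u) (neg_ne_zero.2 hu0) (by linarith)

variable {K : Type*} [Field K] [CharZero K]

/-- No partner of `X³ + Y³ = 1` with rational sum is a cube. -/
theorem false_of_cube (hK : Module.finrank ℚ K = 2) {X z : K} (hX : X ≠ 0) (hz : z ≠ 0)
    (h : X ^ 3 + (z ^ 3) ^ 3 = 1) {S : ℚ} (hS : X + z ^ 3 = S) : False := by
  have hYi : ∀ r : ℚ, (r : K) ≠ z ^ 3 := fun r e => by
    have hXr : X = ((S - r : ℚ) : K) := by push_cast; rw [e]; linear_combination hS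
    rw [hXr, ← e] at h
    rcases FA.Summary.fermat_cubic_points (u := S - r) (v := r)
      (by exact_mod_cast h) with ⟨e0, -⟩ | ⟨-, e0⟩
    · exact hX (by rw [hXr, e0, Rat.cast_zero])
    · exact pow_ne_zero 3 hz (by rw [← e, e0, Rat.cast_zero])
  have hzi : ∀ r : ℚ, (r : K) ≠ z := fun r e => hYi (r ^ 3) (by push_cast; rw [e])
  obtain ⟨q, p, hpq⟩ := exists_add_mul hK hzi (z * z)
  have hY : z ^ 3 = ((p ^ 2 + q : ℚ) : K) * z + ((p * q : ℚ) : K) := by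
    push_cast
    linear_combination (z + p) * hpq
  have hA : p ^ 2 + q ≠ 0 := fun e => hYi (p * q) (by rw [hY, e]; simp)
  have hS0 : (S : K) ≠ 0 := fun e => by
    have : X = -(z ^ 3) := by linear_combination hS + e
    rw [this] at h
    exact zero_ne_one (α := K) (by linear_combination h)
  obtain ⟨c, hc⟩ : ∃ c : ℚ, X * z ^ 3 = c := ⟨(S ^ 3 - 1) / (3 * S), by
    push_cast
    rw [eq_div_iff (mul_ne_zero three_ne_zero hS0), ← hS]
    linear_combination -h⟩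
  obtain ⟨e1, e2⟩ := eq_zero_of_add_mul hzi
    (a := S * (p * q) - (p ^ 2 + q) ^ 2 * q - (p * q) ^ 2 - c)
    (b := (p ^ 2 + q) * (S - (p ^ 2 + q) * p - 2 * (p * q))) (by
      push_cast
      push_cast at hY
      linear_combination ((p : K) ^ 2 + q) ^ 2 * hpq
        + (z ^ 3 - S + (((p : K) ^ 2 + q) * z + p * q)) * hY + hc - z ^ 3 * hS)
  have hS2 : S = (p ^ 2 + q) * p + 2 * (p * q) := by
    linarith [(mul_eq_zero.1 e2).resolve_left hA]
  have hcq : c = -q ^ 3 := by rw [hS2] at e1; linarith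
  have e3 : S ^ 3 + 3 * q ^ 3 * S = 1 := Rat.cast_injective (α := K) (by
    have : (c : K) = -(q : K) ^ 3 := by exact_mod_cast hcq
    push_cast
    rw [← hS]
    linear_combination h + 3 * (X + z ^ 3) * hc + 3 * (X + z ^ 3) * this)
  rw [hcq, eq_zero_of_curve e3] at hc
  exact mul_ne_zero hX (pow_ne_zero 3 hz) (by simpa using hc)

/-- **Exponent `9`.** -/
theorem not_sum_ninth (hK : Module.finrank ℚ K = 2) {x y : K} (hx : x ≠ 0) (hy : y ≠ 0) :
    x ^ 9 + y ^ 9 ≠ 1 := fun h => by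
  have h3 : (x ^ 3) ^ 3 + (y ^ 3) ^ 3 = 1 := by linear_combination h
  have key : ∀ {u v : K}, u ≠ 0 → v ≠ 0 → (∀ a : ℚ, (a : K) ≠ u ^ 3) →
      (u ^ 3) ^ 3 + (v ^ 3) ^ 3 = 1 → False := fun {u v} hu hv hi h' => by
    obtain ⟨X, Y, hX, hY, hXY, ⟨S, hS⟩, hcube⟩ :=
      FA.QuadraticCubic.exists_rational_sum hK (pow_ne_zero 3 hu) (pow_ne_zero 3 hv) hi h'
    obtain ⟨w, rfl⟩ := hcube 3 u v rfl rfl
    exact false_of_cube hK hX (fun e => hY (by rw [e, zero_pow three_ne_zero])) hXY hS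
  by_cases hxi : ∀ a : ℚ, (a : K) ≠ x ^ 3
  · exact key hx hy hxi h3
  by_cases hyi : ∀ b : ℚ, (b : K) ≠ y ^ 3
  · exact key hy hx hyi (by linear_combination h)
  push Not at hxi hyi
  obtain ⟨a, ha⟩ := hxi
  obtain ⟨b, hb⟩ := hyi
  rw [← ha, ← hb] at h3
  rcases FA.Summary.fermat_cubic_points (u := a) (v := b) (by exact_mod_cast h3) with
    ⟨e, -⟩ | ⟨-, e⟩
  · exact pow_ne_zero 3 hx (by rw [← ha, e, Rat.cast_zero])
  · exact pow_ne_zero 3 hy (by rw [← hb, e, Rat.cast_zero])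

end FA.NinthQuadratic

end
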