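import Fermat.Agent.MordellCurve.QuadraticCubic
import Fermat.Agent.MordellCurve.CurveOneFortyFour
import Fermat.Agent.MordellCurve.Torsion

/-!
# Exponents `6` and `4 k`, `k ≥ 2`, in quadratic fields

A solution of `x⁶ + y⁶ = 1` gives `X³ + Y³ = 1` with `X + Y` rational and `Y` a square, hence
`X Y` a square and a point of `y² = x³ + 27`; one of `x⁴ + y⁴ = 1` has norm `2`, so is no power.
-/

set_option autoImplicit false

noncomputable section

namespace FA.SexticQuadratic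

open FA.Aigner

variable {K : Type*} [Field K] [CharZero K]

/-- No partner of `X³ + Y³ = 1` with rational sum is a square. -/
theorem false_of_square (hK : Module.finrank ℚ K = 2) {X Y : K} (hX : X ≠ 0) (hY : Y ≠ 0)
    (h : X ^ 3 + Y ^ 3 = 1) {S : ℚ} (hS : X + Y = S) (hsq : IsSquare Y) : False := by
  obtain ⟨z, rfl⟩ := hsq
  have hYi : ∀ r : ℚ, (r : K) ≠ z * z := fun r e => by
    have hXr : X = ((S - r : ℚ) : K) := by push_cast; rw [e]; linear_combination hS
    rw [hXr, ← e] at h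
    rcases FA.Summary.fermat_cubic_points (u := S - r) (v := r)
      (by exact_mod_cast h) with ⟨e0, -⟩ | ⟨-, e0⟩
    · exact hX (by rw [hXr, e0, Rat.cast_zero])
    · exact hY (by rw [← e, e0, Rat.cast_zero])
  have hzi : ∀ r : ℚ, (r : K) ≠ z := fun r e => hYi (r * r) (by push_cast; rw [e])
  obtain ⟨q, p, hpq⟩ := exists_add_mul hK hzi (z * z)
  have hp : p ≠ 0 := fun e => hYi q (by rw [hpq, e]; simp)
  have hS0 : (S : K) ≠ 0 := fun e => by
    have : X = -(z * z) := by linear_combination hS + e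
    rw [this] at h
    exact zero_ne_one (α := K) (by linear_combination h)
  have hSq : S ≠ 0 := fun e => hS0 (by rw [e, Rat.cast_zero])
  obtain ⟨c, hc⟩ : ∃ c : ℚ, X * (z * z) = c := ⟨(S ^ 3 - 1) / (3 * S), by
    push_cast
    rw [eq_div_iff (mul_ne_zero three_ne_zero hS0), ← hS]
    linear_combination -h⟩
  obtain ⟨e1, e2⟩ := eq_zero_of_add_mul hzi (a := S * q - p ^ 2 * q - q ^ 2 - c)
    (b := p * (S - p ^ 2 - 2 * q)) (by
      push_cast
      rw [← hc, ← hS]
      linear_combination (-X + p * z + q + p ^ 2) * hpq)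
  have hS2 : S = p ^ 2 + 2 * q := by
    linarith [(mul_eq_zero.1 e2).resolve_left hp]
  have hcq : c = q ^ 2 := by rw [hS2] at e1; linarith
  have e3 : 3 * q ^ 2 * S = S ^ 3 - 1 := Rat.cast_injective (α := K) (by
    have : (c : K) = (q : K) ^ 2 := by exact_mod_cast hcq
    push_cast
    rw [← this, ← hc, ← hS]
    linear_combination -h)
  obtain ⟨e4, e5⟩ := FA.Curve144.rational_points (U := -3 / S) (V := 9 * q / S) (by
    field_simp
    linear_combination 27 * e3)
  have hq : q = 0 := by simpa [hSq] using e5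
  rw [hcq, hq] at hc
  exact mul_ne_zero hX hY (by simpa using hc)

/-- **Exponent `6`.** -/
theorem not_sum_sixth (hK : Module.finrank ℚ K = 2) {x y : K} (hx : x ≠ 0) (hy : y ≠ 0) :
    x ^ 6 + y ^ 6 ≠ 1 := fun h => by
  have h3 : (x ^ 2) ^ 3 + (y ^ 2) ^ 3 = 1 := by linear_combination h
  by_cases hxi : ∀ a : ℚ, (a : K) ≠ x ^ 2
  · obtain ⟨X, Y, hX, hY, hXY, ⟨S, hS⟩, hsq⟩ :=
      FA.QuadraticCubic.exists_rational_sum hK (pow_ne_zero 2 hx) (pow_ne_zero 2 hy) hxi h3
    obtain ⟨w, hw⟩ := hsq 2 x y rfl rfl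
    exact false_of_square hK hX hY hXY hS ⟨w, by rw [hw, sq]⟩
  by_cases hyi : ∀ b : ℚ, (b : K) ≠ y ^ 2
  · obtain ⟨X, Y, hX, hY, hXY, ⟨S, hS⟩, hsq⟩ :=
      FA.QuadraticCubic.exists_rational_sum hK (pow_ne_zero 2 hy) (pow_ne_zero 2 hx) hyi
        (by linear_combination h)
    obtain ⟨w, hw⟩ := hsq 2 y x rfl rfl
    exact false_of_square hK hX hY hXY hS ⟨w, by rw [hw, sq]⟩
  push Not at hxi hyi
  obtain ⟨a, ha⟩ := hxi
  obtain ⟨b, hb⟩ := hyi
  rw [← ha, ← hb] at h3
  rcases FA.Summary.fermat_cubic_points (u := a) (v := b) (by exact_mod_cast h3) with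
    ⟨e, -⟩ | ⟨-, e⟩
  · exact pow_ne_zero 2 hx (by rw [← ha, e, Rat.cast_zero])
  · exact pow_ne_zero 2 hy (by rw [← hb, e, Rat.cast_zero])

/-- **Exponent `4 k`, `k ≥ 2`.** -/
theorem not_sum_four_mul (hK : Module.finrank ℚ K = 2) {k : ℕ} (hk : 2 ≤ k) {x y : K}
    (hx : x ≠ 0) (hy : y ≠ 0) : x ^ (4 * k) + y ^ (4 * k) ≠ 1 := fun h => by
  obtain ⟨t, hti, ht, hxt⟩ := exists_param hK (pow_ne_zero k hx) (pow_ne_zero k hy)
    (by rw [← pow_mul, ← pow_mul, mul_comm k]; exact h)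
  obtain ⟨a, b, rfl⟩ := exists_add_mul hK hti x
  have hnorm : ∀ i : ℕ, ∃ A B : ℚ, ((a : K) + b * t) ^ i = A + B * t ∧
      A ^ 2 - A * B + 2 * B ^ 2 = (a ^ 2 - a * b + 2 * b ^ 2) ^ i := by
    intro i
    induction i with
    | zero => exact ⟨1, 0, by simp, by simp⟩
    | succ i ih =>
      obtain ⟨A, B, e, eN⟩ := ih
      refine ⟨A * a - 2 * B * b, A * b + B * a - B * b, ?_, ?_⟩
      · rw [pow_succ, e]
        push_cast
        linear_combination (B : K) * b * ht
      · rw [pow_succ (a ^ 2 - a * b + 2 * b ^ 2), ← eN]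
        ring
  obtain ⟨A, B, e, eN⟩ := hnorm k
  rw [e] at hxt
  have hN : (a ^ 2 - a * b + 2 * b ^ 2) ^ k = ((2 : ℤ) : ℚ) := by
    rw [← eN]
    rcases sq_eq_sq_iff_eq_or_eq_neg.1 hxt with e' | e'
    · obtain ⟨rfl, hB⟩ := eq_zero_of_add_mul hti (a := A) (b := B - 1)
        (by push_cast; linear_combination e')
      obtain rfl : B = 1 := by linarith
      norm_num
    · obtain ⟨rfl, hB⟩ := eq_zero_of_add_mul hti (a := A) (b := B + 1)
        (by push_cast; linear_combination e')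
      obtain rfl : B = -1 := by linarith
      norm_num
  obtain ⟨m, hm⟩ := FA.MordellCurve.exists_int_of_pow (show k ≠ 0 by omega) hN
  rw [hm] at hN
  have hm2 : m.natAbs ^ k = 2 := by
    rw [← Int.natAbs_pow, show m ^ k = 2 by exact_mod_cast hN]
    rfl
  rcases Nat.lt_or_ge m.natAbs 2 with h1 | h1
  · interval_cases hmm : m.natAbs
    · simp [show k ≠ 0 by omega] at hm2
    · simp at hm2
  · have := (Nat.pow_le_pow_right (show 0 < 2 by norm_num) hk).trans (Nat.pow_le_pow_left h1 k)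
    omega

end FA.SexticQuadratic

end
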